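/-
GATE-L / H4-ASM (helper46): the step (H4) = (V3) of the chain skeleton
(`GL/Gate/ChainAbs.lean`, board 2918), assembled from the landed abstract bricks

  `KummerMove.kummer_move`  (ONE generator `g`, `g ^ m * u2 = c ∈ B ∖ ⋃ triple points`)
  `XiRows.xi_pow_const_of_rows`  (four norm-reduction rows ⟹ `(ξ_i/ξ_0)^(q²-1)` global constants)
  `XiStep.node_eq_of_norm`  (equal node values of `h * Nm g`)
  `XiStep.xi_trivial_of_correction`  (correction by `f0`)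
  `CompBranch.sub_mem_nonunits_of_ev_eq`  (equal branch values ⟹ `g - b0` non-unit of the
     composite rings: the `hxi` of helper35's `LocBranch.loc_branch`).

`TripleSetup` collects the geometric data at the triple points (all in hypothesis form):
vertical valuations `W1 W2 W3` of `F` with reductions, `A1 A2` of `E`, the two norms with their
four rows, the branch points `U_i n` with evaluations `e_i n`, their compatibility with the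
residue embeddings, the ring `B` with its triple points `P n` and characters `χ n`.

`U2 S x` : `x ∈ W_i`, `rd_i x = 1` (`i = 1,2,3`).
`U3 S m x` : `U2 S x` and `∃ g c, g ^ m * x = c`, `c ∈ B` outside every triple point, and at every
triple point `n` some `b0 ∈ B ∖ P n` with `g - b0` a non-unit of the three composite rings.

`h4_of_xi` : `U2 u2` + local Kummer data at the triple points + `Nm u2 = c0 * h ^ m` with `h` of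
constant branch values and `Nm c / c0` a unit of the (root closed) node rings + approximation
⟹ `∃ f0 ≠ 0, U3 (u2 ^ (q²-1) * f0 ^ m)`.
-/
import Mathlib
import Fermat.Agent.GL.Move.KummerMove
import Fermat.Agent.GL.Chain.XiRows
import Fermat.Agent.GL.Chain.CompBranchKer

set_option autoImplicit false
set_option linter.unusedSectionVars false
set_option linter.unusedVariables false

namespace Fermat.Agent.GL.H4OfXi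

open Fermat.Agent.GL Fermat.Agent.GL.CompBranch Fermat.Agent.GL.XiRows

/-- in a composite ring, an element of nonzero value is a unit, provided the evaluation `e`
detects the units of `U`. -/
theorem inv_mem_comp_of_ev_ne_zero {F κ k : Type*} [Field F] [Field κ] [Field k]
    (V : ValuationSubring F) (r : V →+* κ) (hr : ∀ z : V, ¬ IsUnit z → r z = 0)
    (U : ValuationSubring κ) (e : U →+* k)
    (heu : ∀ (y : κ) (hy : y ∈ U), e ⟨y, hy⟩ ≠ 0 → y⁻¹ ∈ U) {z : F}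
    (hz : z ∈ comp V r hr U) (hev : (branch V r hr U e).ev z ≠ 0) :
    z⁻¹ ∈ comp V r hr U := by
  obtain ⟨hzV, hzU⟩ := (mem_comp V r hr U).mp hz
  rw [branch_ev V r hr U e hzV hzU] at hev
  have hinvU : (r ⟨z, hzV⟩)⁻¹ ∈ U := heu _ hzU hev
  have hrz0 : r ⟨z, hzV⟩ ≠ 0 := by
    intro h0
    apply hev
    have : (⟨r ⟨z, hzV⟩, hzU⟩ : U) = 0 := Subtype.ext h0
    rw [this, map_zero]
  have hunit : IsUnit (⟨z, hzV⟩ : V) := by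
    by_contra hnu
    exact hrz0 (hr _ hnu)
  have hzi : z⁻¹ ∈ V := inv_mem_of_isUnit hunit
  have hz0 : z ≠ 0 := by
    rintro rfl
    exact hrz0 (map_zero r)
  have hmul : r ⟨z, hzV⟩ * r ⟨z⁻¹, hzi⟩ = 1 := by
    rw [← map_mul]
    have : (⟨z, hzV⟩ : V) * ⟨z⁻¹, hzi⟩ = 1 := Subtype.ext (mul_inv_cancel₀ hz0)
    rw [this, map_one]
  have : r ⟨z⁻¹, hzi⟩ = (r ⟨z, hzV⟩)⁻¹ := eq_inv_of_mul_eq_one_right hmul
  exact (mem_comp V r hr U).mpr ⟨hzi, this ▸ hinvU⟩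

/-- the geometric data at the triple points. -/
structure TripleSetup (F E k k1 k2 k3 k1' k2' B T T' : Type*) [Field F] [Field E] [Field k]
    [Field k1] [Field k2] [Field k3] [Field k1'] [Field k2'] [CommRing B] [Algebra B F] where
  W1 : ValuationSubring F
  W2 : ValuationSubring F
  W3 : ValuationSubring F
  A1 : ValuationSubring E
  A2 : ValuationSubring E
  rd1 : W1 →+* k1
  rd2 : W2 →+* k2
  rd3 : W3 →+* k3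
  rd1' : A1 →+* k1'
  rd2' : A2 →+* k2'
  hr1 : ∀ z : W1, ¬ IsUnit z → rd1 z = 0
  hr2 : ∀ z : W2, ¬ IsUnit z → rd2 z = 0
  hr3 : ∀ z : W3, ¬ IsUnit z → rd3 z = 0
  hr1' : ∀ z : A1, ¬ IsUnit z → rd1' z = 0
  hr2' : ∀ z : A2, ¬ IsUnit z → rd2' z = 0
  U1 : T → ValuationSubring k1
  U2 : T → ValuationSubring k2
  U3 : T → ValuationSubring k3
  e1 : ∀ n, U1 n →+* k
  e2 : ∀ n, U2 n →+* k
  e3 : ∀ n, U3 n →+* k
  U1' : T' → ValuationSubring k1'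
  U2' : T' → ValuationSubring k2'
  e1' : ∀ n', U1' n' →+* k
  e2' : ∀ n', U2' n' →+* k
  heu1 : ∀ n (y : k1) (hy : y ∈ U1 n), e1 n ⟨y, hy⟩ ≠ 0 → y⁻¹ ∈ U1 n
  heu2 : ∀ n (y : k2) (hy : y ∈ U2 n), e2 n ⟨y, hy⟩ ≠ 0 → y⁻¹ ∈ U2 n
  heu3 : ∀ n (y : k3) (hy : y ∈ U3 n), e3 n ⟨y, hy⟩ ≠ 0 → y⁻¹ ∈ U3 n
  p1 : T → T'
  p2 : T → T'
  Nm : F →* E
  Nm' : F →* E
  q : ℕ
  hq : 1 ≤ q
  j11 : k1' →+* k1
  j13 : k1' →+* k3
  j22 : k2' →+* k2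
  j11' : k1' →+* k1
  j22' : k2' →+* k2
  j23' : k2' →+* k3
  hπ13 : ∀ (u : F) (h1 : u ∈ W1) (h3 : u ∈ W3), ∃ hN : Nm u ∈ A1, ∃ y1 y3 : k1',
    j11 y1 = rd1 ⟨u, h1⟩ ∧ j13 y3 = rd3 ⟨u, h3⟩ ∧ rd1' ⟨Nm u, hN⟩ = y1 * y3 ^ (q - 1)
  hπ2 : ∀ (u : F) (h2 : u ∈ W2), ∃ hN : Nm u ∈ A2, j22 (rd2' ⟨Nm u, hN⟩) = rd2 ⟨u, h2⟩ ^ q
  hπ'1 : ∀ (u : F) (h1 : u ∈ W1), ∃ hN : Nm' u ∈ A1,
    j11' (rd1' ⟨Nm' u, hN⟩) = rd1 ⟨u, h1⟩ ^ q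
  hπ'23 : ∀ (u : F) (h2 : u ∈ W2) (h3 : u ∈ W3), ∃ hN : Nm' u ∈ A2, ∃ y2 y3 : k2',
    j22' y2 = rd2 ⟨u, h2⟩ ∧ j23' y3 = rd3 ⟨u, h3⟩ ∧ rd2' ⟨Nm' u, hN⟩ = y2 * y3 ^ (q - 1)
  c11 : ∀ n (y : k1'), y ∈ U1' (p1 n) ↔ j11 y ∈ U1 n
  c11e : ∀ n (y : k1') (hy : y ∈ U1' (p1 n)) (hy' : j11 y ∈ U1 n),
    e1 n ⟨j11 y, hy'⟩ = e1' (p1 n) ⟨y, hy⟩
  c13 : ∀ n (y : k1'), y ∈ U1' (p1 n) ↔ j13 y ∈ U3 n
  c13e : ∀ n (y : k1') (hy : y ∈ U1' (p1 n)) (hy' : j13 y ∈ U3 n),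
    e3 n ⟨j13 y, hy'⟩ = e1' (p1 n) ⟨y, hy⟩
  c22 : ∀ n (y : k2'), y ∈ U2' (p1 n) ↔ j22 y ∈ U2 n
  c22e : ∀ n (y : k2') (hy : y ∈ U2' (p1 n)) (hy' : j22 y ∈ U2 n),
    e2 n ⟨j22 y, hy'⟩ = e2' (p1 n) ⟨y, hy⟩
  c11' : ∀ n (y : k1'), y ∈ U1' (p2 n) ↔ j11' y ∈ U1 n
  c11e' : ∀ n (y : k1') (hy : y ∈ U1' (p2 n)) (hy' : j11' y ∈ U1 n),
    e1 n ⟨j11' y, hy'⟩ = e1' (p2 n) ⟨y, hy⟩
  c22' : ∀ n (y : k2'), y ∈ U2' (p2 n) ↔ j22' y ∈ U2 n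
  c22e' : ∀ n (y : k2') (hy : y ∈ U2' (p2 n)) (hy' : j22' y ∈ U2 n),
    e2 n ⟨j22' y, hy'⟩ = e2' (p2 n) ⟨y, hy⟩
  c23' : ∀ n (y : k2'), y ∈ U2' (p2 n) ↔ j23' y ∈ U3 n
  c23e' : ∀ n (y : k2') (hy : y ∈ U2' (p2 n)) (hy' : j23' y ∈ U3 n),
    e3 n ⟨j23' y, hy'⟩ = e2' (p2 n) ⟨y, hy⟩
  /-- the triple points -/
  P : T → Ideal B
  hmax : ∀ n, (P n).IsMaximal
  hinj : Function.Injective P
  /-- the residue characters `B → B ⧸ P n = k` -/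
  χ : T → (B →+* k)
  hχker : ∀ n b, χ n b = 0 ↔ b ∈ P n
  hχsurj : ∀ n, Function.Surjective (χ n)
  hB1 : ∀ n (b : B), algebraMap B F b ∈ comp W1 rd1 hr1 (U1 n)
  hB2 : ∀ n (b : B), algebraMap B F b ∈ comp W2 rd2 hr2 (U2 n)
  hB3 : ∀ n (b : B), algebraMap B F b ∈ comp W3 rd3 hr3 (U3 n)
  hχ1 : ∀ n (b : B), (branch W1 rd1 hr1 (U1 n) (e1 n)).ev (algebraMap B F b) = χ n b
  hχ2 : ∀ n (b : B), (branch W2 rd2 hr2 (U2 n) (e2 n)).ev (algebraMap B F b) = χ n b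
  hχ3 : ∀ n (b : B), (branch W3 rd3 hr3 (U3 n) (e3 n)).ev (algebraMap B F b) = χ n b

section Main

variable {F E k k1 k2 k3 k1' k2' B T T' : Type*} [Field F] [Field E] [Field k]
  [Field k1] [Field k2] [Field k3] [Field k1'] [Field k2'] [CommRing B] [IsDomain B]
  [Algebra B F] [IsFractionRing B F]
  (S : TripleSetup F E k k1 k2 k3 k1' k2' B T T')

/-- the three branches at the triple point `n`. -/
noncomputable def TripleSetup.bN (n : T) : Fin 3 → XiStep.Branch F k :=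
  XiRows.bN S.W1 S.W2 S.W3 S.rd1 S.rd2 S.rd3 S.hr1 S.hr2 S.hr3 S.U1 S.U2 S.U3 S.e1 S.e2 S.e3 n

/-- the two branches at the node `n'`. -/
noncomputable def TripleSetup.bE (n' : T') : Fin 2 → XiStep.Branch E k :=
  XiRows.bE S.A1 S.A2 S.rd1' S.rd2' S.hr1' S.hr2' S.U1' S.U2' S.e1' S.e2' n'

/-- normalised: `x ∈ W_i` and `rd_i x = 1`. -/
def U2 (x : F) : Prop :=
  (∃ h : x ∈ S.W1, S.rd1 ⟨x, h⟩ = 1) ∧ (∃ h : x ∈ S.W2, S.rd2 ⟨x, h⟩ = 1) ∧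
    ∃ h : x ∈ S.W3, S.rd3 ⟨x, h⟩ = 1

/-- normalised with `XI = 1` at every triple point (shape of `LocBranch.loc_branch`). -/
def U3 (m : ℕ) (x : F) : Prop :=
  U2 S x ∧ ∃ (g : F) (c : B), g ^ m * x = algebraMap B F c ∧ (∀ n, c ∉ S.P n) ∧
    ∀ n, ∃ b0 : B, b0 ∉ S.P n ∧
      g - algebraMap B F b0 ∈ (comp S.W1 S.rd1 S.hr1 (S.U1 n)).nonunits ∧
      g - algebraMap B F b0 ∈ (comp S.W2 S.rd2 S.hr2 (S.U2 n)).nonunits ∧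
      g - algebraMap B F b0 ∈ (comp S.W3 S.rd3 S.hr3 (S.U3 n)).nonunits

theorem U2.mul {x y : F} (hx : U2 S x) (hy : U2 S y) : U2 S (x * y) := by
  obtain ⟨⟨a1, b1⟩, ⟨a2, b2⟩, ⟨a3, b3⟩⟩ := hx
  obtain ⟨⟨c1, d1⟩, ⟨c2, d2⟩, ⟨c3, d3⟩⟩ := hy
  refine ⟨⟨S.W1.mul_mem _ _ a1 c1, ?_⟩, ⟨S.W2.mul_mem _ _ a2 c2, ?_⟩,
    ⟨S.W3.mul_mem _ _ a3 c3, ?_⟩⟩
  · have : (⟨x * y, S.W1.mul_mem _ _ a1 c1⟩ : S.W1) = ⟨x, a1⟩ * ⟨y, c1⟩ := rfl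
    rw [this, map_mul, b1, d1, one_mul]
  · have : (⟨x * y, S.W2.mul_mem _ _ a2 c2⟩ : S.W2) = ⟨x, a2⟩ * ⟨y, c2⟩ := rfl
    rw [this, map_mul, b2, d2, one_mul]
  · have : (⟨x * y, S.W3.mul_mem _ _ a3 c3⟩ : S.W3) = ⟨x, a3⟩ * ⟨y, c3⟩ := rfl
    rw [this, map_mul, b3, d3, one_mul]

theorem U2.one : U2 S (1 : F) :=
  ⟨⟨S.W1.one_mem, map_one S.rd1⟩, ⟨S.W2.one_mem, map_one S.rd2⟩, ⟨S.W3.one_mem, map_one S.rd3⟩⟩

theorem U2.pow {x : F} (hx : U2 S x) (j : ℕ) : U2 S (x ^ j) := by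
  induction j with
  | zero => rw [pow_zero]; exact U2.one S
  | succ i ih => rw [pow_succ]; exact U2.mul S ih hx

/-- **(H4) from the (V3) bricks.** -/
theorem h4_of_xi [Finite T] {m : ℕ} (hm : m ≠ 0) (hrc : KummerMove.RootClosed B F m)
    {u2 : F} (hu20 : u2 ≠ 0) (hU2 : U2 S u2)
    -- local Kummer data at the triple points (REG + `m ∣ div u2`)
    (hloc : ∀ n, ∃ g : F, ∃ a s : B, a ∉ S.P n ∧ s ∉ S.P n ∧
      g ^ m * u2 * algebraMap B F s = algebraMap B F a)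
    -- node rings: root closed, units have equal branch values
    (O' : T' → Subring E) (hroot' : ∀ n' (z : E), z ^ m ∈ O' n' → z ∈ O' n')
    (hE0' : ∀ n' (z : E), z ≠ 0 → z ∈ O' n' → z⁻¹ ∈ O' n' →
      (S.bE n' 0).ev z = (S.bE n' 1).ev z)
    -- the norms of `u2`: constant times `m`-th power, `h` with constant branch values
    {c01 h1 c02 h2 : E} (hc01 : c01 ≠ 0) (hc02 : c02 ≠ 0)
    (hN1 : S.Nm u2 = c01 * h1 ^ m) (hN2 : S.Nm' u2 = c02 * h2 ^ m)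
    (γ1 γ2 : Fin 2 → k)
    (hh1 : ∀ n' j, (S.bE n' j).IsU h1 ∧ (S.bE n' j).ev h1 = γ1 j)
    (hh2 : ∀ n' j, (S.bE n' j).IsU h2 ∧ (S.bE n' j).ev h2 = γ2 j)
    -- norm of a semilocal unit is a unit of the node ring (`NormUnit`)
    (hNU1 : ∀ c : B, (∀ n, c ∉ S.P n) → ∀ n, S.Nm (algebraMap B F c) ≠ 0 ∧
      S.Nm (algebraMap B F c) / c01 ∈ O' (S.p1 n) ∧
      (S.Nm (algebraMap B F c) / c01)⁻¹ ∈ O' (S.p1 n))
    (hNU2 : ∀ c : B, (∀ n, c ∉ S.P n) → ∀ n, S.Nm' (algebraMap B F c) ≠ 0 ∧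
      S.Nm' (algebraMap B F c) / c02 ∈ O' (S.p2 n) ∧
      (S.Nm' (algebraMap B F c) / c02)⁻¹ ∈ O' (S.p2 n))
    -- approximation: prescribed constant reductions `(1, a0, b0)`
    (happ : ∀ a0 b0 : k, a0 ^ m = 1 → b0 ^ m = 1 → ∃ f0 : F, f0 ≠ 0 ∧ U2 S (f0 ^ m) ∧
      (∀ n i, (S.bN n i).IsU f0) ∧
      ∀ n, (S.bN n 0).ev f0 = 1 ∧ (S.bN n 1).ev f0 = a0 ∧ (S.bN n 2).ev f0 = b0) :
    ∃ f0 : F, f0 ≠ 0 ∧ U3 S m (u2 ^ (S.q ^ 2 - 1) * f0 ^ m) := by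
  classical
  -- ONE generator
  obtain ⟨g, hg0, c, hgc, hcP, -⟩ :=
    KummerMove.kummer_move hrc hm S.P S.hmax S.hinj u2 hu20 hloc
  -- `c` is a unit with equal values at all branches
  have hχc : ∀ n, S.χ n c ≠ 0 := fun n h0 => hcP n ((S.hχker n c).mp h0)
  have hcU : ∀ n i, (S.bN n i).IsU (algebraMap B F c) ∧
      (S.bN n i).ev (algebraMap B F c) = S.χ n c := by
    intro n i
    have hc0 : algebraMap B F c ≠ 0 := by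
      intro h0
      have : c = 0 := IsFractionRing.injective B F (by rw [h0, map_zero])
      exact hcP n (this ▸ (S.P n).zero_mem)
    fin_cases i
    · refine ⟨⟨hc0, S.hB1 n c, ?_⟩, S.hχ1 n c⟩
      exact inv_mem_comp_of_ev_ne_zero S.W1 S.rd1 S.hr1 (S.U1 n) (S.e1 n) (S.heu1 n)
        (S.hB1 n c) (by rw [S.hχ1 n c]; exact hχc n)
    · refine ⟨⟨hc0, S.hB2 n c, ?_⟩, S.hχ2 n c⟩
      exact inv_mem_comp_of_ev_ne_zero S.W2 S.rd2 S.hr2 (S.U2 n) (S.e2 n) (S.heu2 n)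
        (S.hB2 n c) (by rw [S.hχ2 n c]; exact hχc n)
    · refine ⟨⟨hc0, S.hB3 n c, ?_⟩, S.hχ3 n c⟩
      exact inv_mem_comp_of_ev_ne_zero S.W3 S.rd3 S.hr3 (S.U3 n) (S.e3 n) (S.heu3 n)
        (S.hB3 n c) (by rw [S.hχ3 n c]; exact hχc n)
  -- equal node values
  have hnode1 : ∀ n, (S.bE (S.p1 n) 0).ev (h1 * S.Nm g) = (S.bE (S.p1 n) 1).ev (h1 * S.Nm g) := by
    intro n
    obtain ⟨hx0, hx, hx'⟩ := hNU1 c hcP n
    exact XiStep.node_eq_of_norm (O' (S.p1 n)) hm (hroot' (S.p1 n)) _ _ (hE0' (S.p1 n))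
      S.Nm hgc hc01 hN1 hx0 hx hx'
  have hnode2 : ∀ n, (S.bE (S.p2 n) 0).ev (h2 * S.Nm' g) =
      (S.bE (S.p2 n) 1).ev (h2 * S.Nm' g) := by
    intro n
    obtain ⟨hx0, hx, hx'⟩ := hNU2 c hcP n
    exact XiStep.node_eq_of_norm (O' (S.p2 n)) hm (hroot' (S.p2 n)) _ _ (hE0' (S.p2 n))
      S.Nm' hgc hc02 hN2 hx0 hx hx'
  -- (V3)
  obtain ⟨hgU, hξm, a0, b0, ha0, hb0, hξ⟩ :=
    xi_pow_const_of_rows S.W1 S.W2 S.W3 S.A1 S.A2 S.rd1 S.rd2 S.rd3 S.rd1' S.rd2'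
      S.hr1 S.hr2 S.hr3 S.hr1' S.hr2' S.U1 S.U2 S.U3 S.e1 S.e2 S.e3 S.U1' S.U2' S.e1' S.e2'
      S.p1 S.p2 S.Nm S.Nm' S.hq hm S.j11 S.j13 S.j22 S.hπ13 S.hπ2 S.j11' S.j22' S.j23'
      S.hπ'1 S.hπ'23 S.c11 S.c11e S.c13 S.c13e S.c22 S.c22e S.c11' S.c11e' S.c22' S.c22e'
      S.c23' S.c23e' hgc hU2 (fun n => S.χ n c) hcU γ1 γ2 hh1 hnode1 hh2 hnode2
  -- correction
  obtain ⟨f0, hf00, hf0U2, hf0U, hf0ev⟩ := happ a0 b0 ha0 hb0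
  have hu2U : ∀ n i, (S.bN n i).IsU u2 ∧ (S.bN n i).ev u2 = 1 := by
    obtain ⟨⟨a1, b1⟩, ⟨a2, b2⟩, ⟨a3, b3⟩⟩ := hU2
    intro n i
    fin_cases i
    · exact isU_of_res_eq_one S.W1 S.rd1 S.hr1 (S.U1 n) (S.e1 n) a1 b1
    · exact isU_of_res_eq_one S.W2 S.rd2 S.hr2 (S.U2 n) (S.e2 n) a2 b2
    · exact isU_of_res_eq_one S.W3 S.rd3 S.hr3 (S.U3 n) (S.e3 n) a3 b3
  obtain ⟨hg3, hg3U, -, hg3ev⟩ :=
    XiStep.xi_trivial_of_correction (q := S.q) S.bN hgc hf00 hu2U hgU ha0 hb0 hξ hf0U hf0ev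
  refine ⟨f0, hf00, U2.mul S (U2.pow S hU2 _) hf0U2, g ^ (S.q ^ 2 - 1) / f0,
    c ^ (S.q ^ 2 - 1), ?_, ?_, ?_⟩
  · rw [hg3, map_pow]
  · intro n hmem
    exact hcP n ((S.hmax n).isPrime.mem_of_pow_mem _ hmem)
  · intro n
    obtain ⟨b0', hb0'⟩ := S.hχsurj n ((S.bN n 0).ev (g ^ (S.q ^ 2 - 1) / f0))
    have hne : S.χ n b0' ≠ 0 := by
      rw [hb0']; exact XiStep.Branch.ev_ne_zero (hg3U n 0)
    refine ⟨b0', fun hmem => hne ((S.hχker n b0').mpr hmem), ?_, ?_, ?_⟩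
    · apply sub_mem_nonunits_of_ev_eq S.W1 S.rd1 S.hr1 (S.U1 n) (S.e1 n) (hg3U n 0).2.1
        (S.hB1 n b0')
      rw [S.hχ1 n b0', hb0']; rfl
    · apply sub_mem_nonunits_of_ev_eq S.W2 S.rd2 S.hr2 (S.U2 n) (S.e2 n) (hg3U n 1).2.1
        (S.hB2 n b0')
      rw [S.hχ2 n b0', hb0']; exact hg3ev n 1
    · apply sub_mem_nonunits_of_ev_eq S.W3 S.rd3 S.hr3 (S.U3 n) (S.e3 n) (hg3U n 2).2.1
        (S.hB3 n b0')
      rw [S.hχ3 n b0', hb0']; exact hg3ev n 2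

end Main

end Fermat.Agent.GL.H4OfXi
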