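/-
GATE-L / V4-SKELETON (helper24): the chain (V4) of BLUEPRINT v2, from the contract
`GeomGateAB.UnitGateAB` down to the nodes.

PART A (PROVED, no hypothesis): the Galois-cohomological steps (c') and (H2) of the chain are
discharged here from helper1's landed `InvDescentFK.exists_invariant_rep` and
`InvDescentUniq.exists_invariant_root`:

* `InvUnitGateAB N0 q m m1 P C` : the gate for units `u` of `F_{N0 q}` which are THEMSELVES fixed by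
  the inertia group `I(P)` (`u ∈ F_L`, `L = ℚ̄^I`), with `m ∣ div u`, and whose two degeneracy norms
  are of the form `a * h ^ m` with `a ∈ Lˣ` an invariant CONSTANT and `h ∈ (F'_L)ˣ` an invariant
  function: `u ^ C` is an `m1`-th power.
* `unitGateAB_of_inv` : `InvUnitGateAB → UnitGateAB` (same `m, m1, C`).
* `geomInvAB_of_invUnitGate` : the concrete gate `GeomInvAB N0 q (p ^ k) P (C' * p ^ c)` at all `k`
  from `InvUnitGateAB N0 q (p ^ k) (p ^ (k - c)) P C'` (`k ≥ c`).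

PART B (hypothesis form): `invUnitGateAB_of_chain` — the remaining chain
(d')+(b)+APPROX → (V3) → (LOC)+(V1) as three explicit hypotheses about units of `F_{N0 q}`.
-/
import Mathlib
import Fermat.Agent.GL.Hecke.GeomGateAB
import Fermat.Agent.GL.Coh.InvDescentUniq
import Fermat.Agent.GL.Chain.RedStep

set_option autoImplicit false
set_option linter.style.haveILetI false
set_option linter.unusedSectionVars false

noncomputable section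

namespace Fermat.Agent.GL.Gate

open AlgebraicCurve ModularCurve IntermediateField
open Fermat.Agent.S24 Fermat.Agent.S24_helper82
open Fermat.Agent.GJ Fermat.Agent.GJ.HN Fermat.Agent.GJ.HeckeMer Fermat.Agent.GJ.HInputs
open Fermat.Agent.GJ.KumGroup Fermat.Agent.GJ.Kum.KumType Fermat.Agent.GJ.KumTower
open Fermat.Agent.GK.UTr Fermat.Agent.GL.Hecke
open Fermat.Agent.GL.Coh.InvDescentFK Fermat.Agent.GL.Coh.InvDescentUniq

local notation "GQ'" => (AlgebraicClosure ℚ ≃ₐ[ℚ] AlgebraicClosure ℚ)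

/-! ### Part A: reduction to invariant units -/

section PartA

variable (N0 q : ℕ) [NeZero N0] [NeZero q]

/-- "`v = a * h ^ m` with `a` an `H`-invariant nonzero constant and `h` an `H`-invariant unit" -/
def IsInvConstPow (N : ℕ) (H : Subgroup GQ') (m : ℕ) (v : (FK N)ˣ) : Prop :=
  ∃ (a : Kb) (h : (FK N)ˣ), a ≠ 0 ∧ (∀ σ ∈ H, σ a = a) ∧ (∀ σ ∈ H, galUnits N σ h = h) ∧
    ((v : (FK N)ˣ) : FK N) = algebraMap Kb (FK N) a * ((h : (FK N)ˣ) : FK N) ^ m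

/-- **The gate for INVARIANT units** (moduli `m1 ∣ m`). -/
def InvUnitGateAB (m m1 : ℕ) (P : ValuationSubring (AlgebraicClosure ℚ)) (C : ℕ) : Prop :=
  ∀ u : (FK (N0 * q))ˣ, u ∈ pDivUnits Kb (FK (N0 * q)) m →
    (∀ σ ∈ P.inertiaSubgroupIn ℚ, galUnits (N0 * q) σ u = u) →
    IsInvConstPow N0 (P.inertiaSubgroupIn ℚ) m (normUnits N0 q u) →
    IsInvConstPow N0 (P.inertiaSubgroupIn ℚ) m (normUnitsB N0 q u) →
      ∃ w : (FK (N0 * q))ˣ, u ^ C = w ^ m1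

variable {N0 q}

/-- an `H`-invariant unit which is an `m`-th power is an invariant constant times the `m`-th power
of an invariant unit (helper1's `exists_invariant_root` with `u = 1`) -/
theorem isInvConstPow_of_pow {N : ℕ} (H : Subgroup GQ') {m : ℕ} (hm : m ≠ 0) (v w : (FK N)ˣ)
    (hvw : v = w ^ m) (hv : ∀ σ ∈ H, galUnits N σ v = v) : IsInvConstPow N H m v := by
  have hv' : ∀ σ ∈ H, arithmeticRingAut (modularFunctionFieldFull N) σ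
      ((1 : FK N) * ((w : (FK N)ˣ) : FK N) ^ m) = (1 : FK N) * ((w : (FK N)ˣ) : FK N) ^ m := by
    intro σ hσ
    have h1 := congrArg (fun x : (FK N)ˣ => (x : FK N)) (hv σ hσ)
    simp only [coe_galUnits, hvw, Units.val_pow_eq_pow_val] at h1
    rw [one_mul]
    exact h1
  obtain ⟨a, h₀, ha0, hh0, hainv, hh0inv, heq⟩ :=
    exists_invariant_root (modularFunctionFieldFull N) H m hm (1 : FK N) ((w : (FK N)ˣ) : FK N)
      one_ne_zero w.ne_zero (fun σ _ => map_one _) hv'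
  refine ⟨a, Units.mk0 h₀ hh0, ha0, hainv, fun σ hσ => Units.ext ?_, ?_⟩
  · rw [coe_galUnits]
    exact hh0inv σ hσ
  · rw [hvw, Units.val_pow_eq_pow_val, Units.val_mk0]
    rw [one_mul, mul_one] at heq
    exact heq

/-- **(c') + (H2): the unit gate from the gate for invariant units.** -/
theorem unitGateAB_of_inv {m m1 : ℕ} (hm : m ≠ 0) (hm1 : m1 ∣ m)
    {P : ValuationSubring (AlgebraicClosure ℚ)} {C : ℕ}
    (h : InvUnitGateAB N0 q m m1 P C) : UnitGateAB N0 q m m1 P C := by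
  intro u hu hI h1 h2
  -- (c'): an invariant representative `u' = u * b ^ m`
  have hu' : ∀ σ ∈ P.inertiaSubgroupIn ℚ, ∃ c : FK (N0 * q),
      arithmeticRingAut (modularFunctionFieldFull (N0 * q)) σ ((u : (FK (N0 * q))ˣ) : FK (N0 * q)) =
        ((u : (FK (N0 * q))ˣ) : FK (N0 * q)) * c ^ m := by
    intro σ hσ
    obtain ⟨w, hw⟩ := hI σ hσ
    refine ⟨((w : (FK (N0 * q))ˣ) : FK (N0 * q)), ?_⟩
    have h3 := congrArg (fun x : (FK (N0 * q))ˣ => (x : FK (N0 * q))) hw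
    simpa using h3
  obtain ⟨b, hb0, hb⟩ := exists_invariant_rep (modularFunctionFieldFull (N0 * q))
    (P.inertiaSubgroupIn ℚ) m hm ((u : (FK (N0 * q))ˣ) : FK (N0 * q)) u.ne_zero hu'
  let bu : (FK (N0 * q))ˣ := Units.mk0 b hb0
  have hu'mem : u * bu ^ m ∈ pDivUnits Kb (FK (N0 * q)) m :=
    (pDivUnits Kb (FK (N0 * q)) m).mul_mem hu (pow_mem_pDivUnits Kb (FK (N0 * q)) m bu)
  have hu'inv : ∀ σ ∈ P.inertiaSubgroupIn ℚ, galUnits (N0 * q) σ (u * bu ^ m) = u * bu ^ m := by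
    intro σ hσ
    refine Units.ext ?_
    rw [coe_galUnits]
    exact hb σ hσ
  -- (H2): the norms of `u'`
  obtain ⟨w1, hw1⟩ := h1
  obtain ⟨w2, hw2⟩ := h2
  have hn1 : normUnits N0 q (u * bu ^ m) = (w1 * normUnits N0 q bu) ^ m := by
    rw [map_mul, map_pow, hw1, mul_pow]
  have hn2 : normUnitsB N0 q (u * bu ^ m) = (w2 * normUnitsB N0 q bu) ^ m := by
    rw [map_mul, map_pow, hw2, mul_pow]
  have hn1inv : ∀ σ ∈ P.inertiaSubgroupIn ℚ,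
      galUnits N0 σ (normUnits N0 q (u * bu ^ m)) = normUnits N0 q (u * bu ^ m) := by
    intro σ hσ
    rw [← normUnits_galUnits, hu'inv σ hσ]
  have hn2inv : ∀ σ ∈ P.inertiaSubgroupIn ℚ,
      galUnits N0 σ (normUnitsB N0 q (u * bu ^ m)) = normUnitsB N0 q (u * bu ^ m) := by
    intro σ hσ
    rw [← normUnitsB_galUnits, hu'inv σ hσ]
  obtain ⟨w, hw⟩ := h (u * bu ^ m) hu'mem hu'inv
    (isInvConstPow_of_pow _ hm _ _ hn1 hn1inv) (isInvConstPow_of_pow _ hm _ _ hn2 hn2inv)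
  -- back to `u`
  obtain ⟨e, rfl⟩ := hm1
  refine ⟨w * (bu⁻¹) ^ (e * C), ?_⟩
  have h4 : u ^ C = (u * bu ^ (m1 * e)) ^ C * ((bu⁻¹) ^ (e * C)) ^ m1 := by
    rw [mul_pow, ← pow_mul, ← pow_mul, inv_pow, mul_assoc]
    have : m1 * e * C = e * C * m1 := by ring
    rw [this, mul_inv_cancel, mul_one]
  rw [h4, hw, mul_pow]

/-- **The concrete gate at all levels `p ^ k` from the gate for invariant units** with a bounded
level loss `p ^ c`. -/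
theorem geomInvAB_of_invUnitGate (p : ℕ) [Fact p.Prime] (c C' : ℕ)
    {P : ValuationSubring (AlgebraicClosure ℚ)}
    (h : ∀ k, c ≤ k → InvUnitGateAB N0 q (p ^ k) (p ^ (k - c)) P C') (k : ℕ) :
    GeomInvAB N0 q (p ^ k) P (C' * p ^ c) :=
  geomInvAB_of_unitGate p c C'
    (fun k hck => unitGateAB_of_inv (pow_ne_zero k (Fact.out : p.Prime).ne_zero)
      (pow_dvd_pow p (Nat.sub_le k c)) (h k hck)) k

end PartA

/-! ### Part B: transport to the invariant subfield `K₀(X₀(N))`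

Abstract form: `K0'` a field of constants with `ι : K0' → ℚ̄`, `F0`, `F0'` fields over `K0'` with
ring homomorphisms `τ : F0 → F_{N0 q}`, `τ' : F0' → F_{N0}` (the base extensions
`K₀(X₀(N)) → ℚ̄(X₀(N))`: helper26 `toFN0` / helper45 `mapK0Bar` / helper80 `toFK`), monoid
homomorphisms `NmA NmB : F0 → F0'` lifting the two degeneracy norms (helper67 `alphaK0`/`betaK0` +
norm base change), and the three surjectivity statements "invariant ⟹ in the image"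
(helper80 `exists_unit_of_galUnits_fixed`, helper45 `mem_range_ι0_iff`). -/

section PartB

open Fermat.Agent.GL.Chain

variable {N0 q : ℕ} [NeZero N0] [NeZero q]
variable {K0' F0 F0' : Type*} [Field K0'] [Field F0] [Field F0'] [Algebra K0' F0] [Algebra K0' F0']

/-- **The gate over the invariant subfield** `F0 = K₀(X₀(N0 q))`: for `x ≠ 0` with `m ∣ div x`
(divisor taken over `ℚ̄`) whose two degeneracy norms are `constant * m-th power`, `x ^ C` is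
`constant * m1-th power` (helper66's `IsCstPow` over the constants `K0'`). -/
def K0UnitGate (K0' : Type*) {F0 F0' : Type*} [Field K0'] [Field F0] [Field F0'] [Algebra K0' F0]
    [Algebra K0' F0'] (τ : F0 →+* FK (N0 * q)) (NmA NmB : F0 →* F0') (m m1 C : ℕ) : Prop :=
  ∀ x : F0, x ≠ 0 → (∀ P : Place Kb (FK (N0 * q)), (m : ℤ) ∣ P.ord (τ x)) →
    IsCstPow K0' m (NmA x) → IsCstPow K0' m (NmB x) → IsCstPow K0' m1 (x ^ C)

/-- an invariant `constant * m-th power` downstairs comes from a `constant * m-th power` over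
`K0'` -/
theorem isCstPow_of_isInvConstPow {N : ℕ} [NeZero N] {F1 : Type*} [Field F1] [Algebra K0' F1]
    (ι : K0' →+* Kb) (τ1 : F1 →+* FK N)
    (hτ1 : ∀ a : K0', τ1 (algebraMap K0' F1 a) = algebraMap Kb (FK N) (ι a))
    (H : Subgroup GQ')
    (hsurj1 : ∀ u : (FK N)ˣ, (∀ σ ∈ H, galUnits N σ u = u) → ∃ x : F1, τ1 x = (u : FK N))
    (hι : ∀ a : Kb, (∀ σ ∈ H, σ a = a) → ∃ a0 : K0', ι a0 = a)
    {m : ℕ} (y : F1) (v : (FK N)ˣ) (hyv : τ1 y = (v : FK N)) (hv : IsInvConstPow N H m v) :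
    IsCstPow K0' m y := by
  obtain ⟨a, h, ha0, hainv, hhinv, heq⟩ := hv
  obtain ⟨a0, rfl⟩ := hι a hainv
  obtain ⟨h0, hh0⟩ := hsurj1 h hhinv
  have ha00 : a0 ≠ 0 := by
    rintro rfl
    exact ha0 (map_zero ι)
  have hh00 : h0 ≠ 0 := by
    rintro rfl
    rw [map_zero] at hh0
    exact h.ne_zero hh0.symm
  refine ⟨a0, h0, ha00, hh00, τ1.injective ?_⟩
  rw [hyv, heq, map_mul, map_pow, hτ1, hh0]

/-- **Transport**: the gate for invariant units of `F_{N0 q}` from the gate over `K₀(X₀(N0 q))`. -/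
theorem invUnitGateAB_of_K0 (ι : K0' →+* Kb) (τ : F0 →+* FK (N0 * q)) (τ' : F0' →+* FK N0)
    (hτ : ∀ a : K0', τ (algebraMap K0' F0 a) = algebraMap Kb (FK (N0 * q)) (ι a))
    (hτ' : ∀ a : K0', τ' (algebraMap K0' F0' a) = algebraMap Kb (FK N0) (ι a))
    (NmA NmB : F0 →* F0')
    (hA : ∀ x : F0, τ' (NmA x) = normAlong (alphaB N0 q) (τ x))
    (hB : ∀ x : F0, τ' (NmB x) = normAlong (betaB N0 q) (τ x))
    (P : ValuationSubring (AlgebraicClosure ℚ))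
    (hsurj : ∀ u : (FK (N0 * q))ˣ, (∀ σ ∈ P.inertiaSubgroupIn ℚ, galUnits (N0 * q) σ u = u) →
      ∃ x : F0, τ x = (u : FK (N0 * q)))
    (hsurj' : ∀ u : (FK N0)ˣ, (∀ σ ∈ P.inertiaSubgroupIn ℚ, galUnits N0 σ u = u) →
      ∃ x : F0', τ' x = (u : FK N0))
    (hι : ∀ a : Kb, (∀ σ ∈ P.inertiaSubgroupIn ℚ, σ a = a) → ∃ a0 : K0', ι a0 = a)
    {m m1 C : ℕ} (hm1 : m1 ≠ 0) (h : K0UnitGate K0' τ NmA NmB m m1 C) :
    InvUnitGateAB N0 q m m1 P C := by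
  intro u hu huinv h1 h2
  obtain ⟨x, hx⟩ := hsurj u huinv
  have hx0 : x ≠ 0 := by
    rintro rfl
    rw [map_zero] at hx
    exact u.ne_zero hx.symm
  have hdiv : ∀ Q : Place Kb (FK (N0 * q)), (m : ℤ) ∣ Q.ord (τ x) := by
    intro Q
    rw [hx]
    exact hu Q
  have e1 : IsCstPow K0' m (NmA x) :=
    isCstPow_of_isInvConstPow ι τ' hτ' _ hsurj' hι (NmA x) (normUnits N0 q u)
      (by rw [hA, hx]; rfl) h1
  have e2 : IsCstPow K0' m (NmB x) :=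
    isCstPow_of_isInvConstPow ι τ' hτ' _ hsurj' hι (NmB x) (normUnitsB N0 q u)
      (by rw [hB, hx]; rfl) h2
  obtain ⟨c, g, hc, hg, hcg⟩ := h x hx0 hdiv e1 e2
  -- the constant is an `m1`-th power in `ℚ̄`
  obtain ⟨r, hr⟩ := IsAlgClosed.exists_pow_nat_eq (ι c) (Nat.pos_of_ne_zero hm1)
  have hr0 : r ≠ 0 := by
    rintro rfl
    rw [zero_pow hm1] at hr
    exact hc (ι.injective (by rw [← hr, map_zero]))
  have hw0 : algebraMap Kb (FK (N0 * q)) r * τ g ≠ 0 :=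
    mul_ne_zero ((map_ne_zero _).mpr hr0) ((map_ne_zero τ).mpr hg)
  refine ⟨Units.mk0 _ hw0, Units.ext ?_⟩
  rw [Units.val_pow_eq_pow_val, Units.val_pow_eq_pow_val, Units.val_mk0, ← hx, ← map_pow, hcg,
    map_mul, map_pow, hτ, mul_pow, ← hr, map_pow]

/-- variant of `K0UnitGate` with the CONCLUSION over `ℚ̄`: `τ x ^ C` is an `m1`-th power in
`F_{N0 q}` (what `Finish.isPow_of_section_bar` delivers; no descent of the root needed). -/
def K0UnitGateQ (K0' : Type*) {F0 F0' : Type*} [Field K0'] [Field F0] [Field F0'] [Algebra K0' F0]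
    [Algebra K0' F0'] (τ : F0 →+* FK (N0 * q)) (NmA NmB : F0 →* F0') (m m1 C : ℕ) : Prop :=
  ∀ x : F0, x ≠ 0 → (∀ P : Place Kb (FK (N0 * q)), (m : ℤ) ∣ P.ord (τ x)) →
    IsCstPow K0' m (NmA x) → IsCstPow K0' m (NmB x) →
      ∃ w : FK (N0 * q), w ≠ 0 ∧ τ x ^ C = w ^ m1

/-- the `K0`-conclusion implies the `ℚ̄`-conclusion (constants are `m1`-th powers in `ℚ̄`) -/
theorem K0UnitGate.toQ (ι : K0' →+* Kb) (τ : F0 →+* FK (N0 * q))
    (hτ : ∀ a : K0', τ (algebraMap K0' F0 a) = algebraMap Kb (FK (N0 * q)) (ι a))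
    (NmA NmB : F0 →* F0') {m m1 C : ℕ} (hm1 : m1 ≠ 0) (h : K0UnitGate K0' τ NmA NmB m m1 C) :
    K0UnitGateQ K0' τ NmA NmB m m1 C := by
  intro x hx0 hdiv e1 e2
  obtain ⟨c, g, hc, hg, hcg⟩ := h x hx0 hdiv e1 e2
  obtain ⟨r, hr⟩ := IsAlgClosed.exists_pow_nat_eq (ι c) (Nat.pos_of_ne_zero hm1)
  have hr0 : r ≠ 0 := by
    rintro rfl
    rw [zero_pow hm1] at hr
    exact hc (ι.injective (by rw [← hr, map_zero]))
  refine ⟨algebraMap Kb (FK (N0 * q)) r * τ g,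
    mul_ne_zero ((map_ne_zero _).mpr hr0) ((map_ne_zero τ).mpr hg), ?_⟩
  rw [← map_pow, hcg, map_mul, map_pow, hτ, mul_pow, ← hr, map_pow]

/-- **Transport, `ℚ̄`-conclusion form.** -/
theorem invUnitGateAB_of_K0Q (ι : K0' →+* Kb) (τ : F0 →+* FK (N0 * q)) (τ' : F0' →+* FK N0)
    (hτ' : ∀ a : K0', τ' (algebraMap K0' F0' a) = algebraMap Kb (FK N0) (ι a))
    (NmA NmB : F0 →* F0')
    (hA : ∀ x : F0, τ' (NmA x) = normAlong (alphaB N0 q) (τ x))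
    (hB : ∀ x : F0, τ' (NmB x) = normAlong (betaB N0 q) (τ x))
    (P : ValuationSubring (AlgebraicClosure ℚ))
    (hsurj : ∀ u : (FK (N0 * q))ˣ, (∀ σ ∈ P.inertiaSubgroupIn ℚ, galUnits (N0 * q) σ u = u) →
      ∃ x : F0, τ x = (u : FK (N0 * q)))
    (hsurj' : ∀ u : (FK N0)ˣ, (∀ σ ∈ P.inertiaSubgroupIn ℚ, galUnits N0 σ u = u) →
      ∃ x : F0', τ' x = (u : FK N0))
    (hι : ∀ a : Kb, (∀ σ ∈ P.inertiaSubgroupIn ℚ, σ a = a) → ∃ a0 : K0', ι a0 = a)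
    {m m1 C : ℕ} (h : K0UnitGateQ K0' τ NmA NmB m m1 C) :
    InvUnitGateAB N0 q m m1 P C := by
  intro u hu huinv h1 h2
  obtain ⟨x, hx⟩ := hsurj u huinv
  have hx0 : x ≠ 0 := by
    rintro rfl
    rw [map_zero] at hx
    exact u.ne_zero hx.symm
  have hdiv : ∀ Q : Place Kb (FK (N0 * q)), (m : ℤ) ∣ Q.ord (τ x) := by
    intro Q
    rw [hx]
    exact hu Q
  have e1 : IsCstPow K0' m (NmA x) :=
    isCstPow_of_isInvConstPow ι τ' hτ' _ hsurj' hι (NmA x) (normUnits N0 q u)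
      (by rw [hA, hx]; rfl) h1
  have e2 : IsCstPow K0' m (NmB x) :=
    isCstPow_of_isInvConstPow ι τ' hτ' _ hsurj' hι (NmB x) (normUnitsB N0 q u)
      (by rw [hB, hx]; rfl) h2
  obtain ⟨w, hw0, hw⟩ := h x hx0 hdiv e1 e2
  refine ⟨Units.mk0 w hw0, Units.ext ?_⟩
  rw [Units.val_pow_eq_pow_val, Units.val_pow_eq_pow_val, Units.val_mk0, ← hx, hw]

/-- **Parts A + B assembled, `ℚ̄`-conclusion form.** -/
theorem geomInvAB_of_K0Q (ι : K0' →+* Kb) (τ : F0 →+* FK (N0 * q)) (τ' : F0' →+* FK N0)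
    (hτ' : ∀ a : K0', τ' (algebraMap K0' F0' a) = algebraMap Kb (FK N0) (ι a))
    (NmA NmB : F0 →* F0')
    (hA : ∀ x : F0, τ' (NmA x) = normAlong (alphaB N0 q) (τ x))
    (hB : ∀ x : F0, τ' (NmB x) = normAlong (betaB N0 q) (τ x))
    (P : ValuationSubring (AlgebraicClosure ℚ))
    (hsurj : ∀ u : (FK (N0 * q))ˣ, (∀ σ ∈ P.inertiaSubgroupIn ℚ, galUnits (N0 * q) σ u = u) →
      ∃ x : F0, τ x = (u : FK (N0 * q)))
    (hsurj' : ∀ u : (FK N0)ˣ, (∀ σ ∈ P.inertiaSubgroupIn ℚ, galUnits N0 σ u = u) →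
      ∃ x : F0', τ' x = (u : FK N0))
    (hι : ∀ a : Kb, (∀ σ ∈ P.inertiaSubgroupIn ℚ, σ a = a) → ∃ a0 : K0', ι a0 = a)
    (p : ℕ) [Fact p.Prime] (c C' : ℕ)
    (h : ∀ k, c ≤ k → K0UnitGateQ K0' τ NmA NmB (p ^ k) (p ^ (k - c)) C') (k : ℕ) :
    GeomInvAB N0 q (p ^ k) P (C' * p ^ c) :=
  geomInvAB_of_invUnitGate p c C'
    (fun k hk => invUnitGateAB_of_K0Q ι τ τ' hτ' NmA NmB hA hB P hsurj hsurj' hι (h k hk)) k

/-- **Parts A + B assembled**: the concrete gate `GeomInvAB` (= helper17's `GeomKill`) at all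
levels `p ^ k` from the gate over `K₀(X₀(N0 q))` with a bounded level loss `p ^ c`. -/
theorem geomInvAB_of_K0 (ι : K0' →+* Kb) (τ : F0 →+* FK (N0 * q)) (τ' : F0' →+* FK N0)
    (hτ : ∀ a : K0', τ (algebraMap K0' F0 a) = algebraMap Kb (FK (N0 * q)) (ι a))
    (hτ' : ∀ a : K0', τ' (algebraMap K0' F0' a) = algebraMap Kb (FK N0) (ι a))
    (NmA NmB : F0 →* F0')
    (hA : ∀ x : F0, τ' (NmA x) = normAlong (alphaB N0 q) (τ x))
    (hB : ∀ x : F0, τ' (NmB x) = normAlong (betaB N0 q) (τ x))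
    (P : ValuationSubring (AlgebraicClosure ℚ))
    (hsurj : ∀ u : (FK (N0 * q))ˣ, (∀ σ ∈ P.inertiaSubgroupIn ℚ, galUnits (N0 * q) σ u = u) →
      ∃ x : F0, τ x = (u : FK (N0 * q)))
    (hsurj' : ∀ u : (FK N0)ˣ, (∀ σ ∈ P.inertiaSubgroupIn ℚ, galUnits N0 σ u = u) →
      ∃ x : F0', τ' x = (u : FK N0))
    (hι : ∀ a : Kb, (∀ σ ∈ P.inertiaSubgroupIn ℚ, σ a = a) → ∃ a0 : K0', ι a0 = a)
    (p : ℕ) [Fact p.Prime] (c C' : ℕ)
    (h : ∀ k, c ≤ k → K0UnitGate K0' τ NmA NmB (p ^ k) (p ^ (k - c)) C') (k : ℕ) :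
    GeomInvAB N0 q (p ^ k) P (C' * p ^ c) :=
  geomInvAB_of_invUnitGate p c C'
    (fun k hk => invUnitGateAB_of_K0 ι τ τ' hτ hτ' NmA NmB hA hB P hsurj hsurj' hι
      (pow_ne_zero _ (Fact.out : p.Prime).ne_zero) (h k hk)) k

end PartB

/-! ### Part C: the geometric chain over `F0 = K₀(X₀(N0 q))`, in hypothesis form

`U2` = "normalised": `w_i(x) = 0` and `rd_i(x) = 1` for the three vertical valuations;
`U3` = "normalised and `XI = 1` at every triple point".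

* (H3) = helper66 `Chain.exists_normalised`   ((d') + (b) + APPROX; loses `p ^ c` in the modulus
         and the exponent `q - 1`);
* (H4) = (V3) helper46 `XiStep` + helper66 L9  (exponent `q² - 1`);
* (H5) = (LOC) helper35 + CECH-KUMMER helper28/helper33 + finish (`deg D = 0 ⟹ D` principal). -/

section PartC

open Fermat.Agent.GL.Chain

variable {N0 q : ℕ} [NeZero N0] [NeZero q]
variable {K0' F0 F0' : Type*} [Field K0'] [Field F0] [Field F0'] [Algebra K0' F0] [Algebra K0' F0']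

/-- **The chain** (H4 WITH the divisor hypothesis `m1 ∣ div u2`, which is proved here from
`m ∣ div x`).  `C = (qq - 1) * (qq ^ 2 - 1)` where `qq` is the residue characteristic. -/
theorem k0UnitGate_of_chain' (τ : F0 →+* FK (N0 * q)) (NmA NmB : F0 →* F0') (qq m m1 : ℕ)
    (U2 U3 : F0 → Prop)
    (H3 : ∀ x : F0, x ≠ 0 → IsCstPow K0' m (NmA x) → IsCstPow K0' m (NmB x) →
      ∃ (cst : K0') (g u2 : F0), cst ≠ 0 ∧ g ≠ 0 ∧
        x ^ (qq - 1) = algebraMap K0' F0 cst * g ^ m1 * u2 ∧ U2 u2 ∧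
        IsCstPow K0' m1 (NmA u2) ∧ IsCstPow K0' m1 (NmB u2))
    (H4 : ∀ u2 : F0, u2 ≠ 0 → U2 u2 →
      (∀ P : Place Kb (FK (N0 * q)), (m1 : ℤ) ∣ P.ord (τ u2)) →
      IsCstPow K0' m1 (NmA u2) → IsCstPow K0' m1 (NmB u2) →
      ∃ f0 : F0, f0 ≠ 0 ∧ U3 (u2 ^ (qq ^ 2 - 1) * f0 ^ m1))
    (H5 : ∀ u3 : F0, u3 ≠ 0 → U3 u3 →
      (∀ P : Place Kb (FK (N0 * q)), (m1 : ℤ) ∣ P.ord (τ u3)) → IsCstPow K0' m1 u3)
    (hm1 : m1 ∣ m)
    (hτ : ∀ a : K0', ∃ b : Kb, τ (algebraMap K0' F0 a) = algebraMap Kb (FK (N0 * q)) b) :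
    K0UnitGate K0' τ NmA NmB m m1 ((qq - 1) * (qq ^ 2 - 1)) := by
  intro x hx0 hdiv e1 e2
  obtain ⟨cst, g, u2, hcst, hg, hxu, hU2, e1', e2'⟩ := H3 x hx0 e1 e2
  have hu20 : u2 ≠ 0 := by
    rintro rfl
    rw [mul_zero] at hxu
    exact pow_ne_zero _ hx0 hxu
  have hτx0 : τ x ≠ 0 := (map_ne_zero τ).mpr hx0
  have hτg0 : τ g ≠ 0 := (map_ne_zero τ).mpr hg
  have hτu20 : τ u2 ≠ 0 := (map_ne_zero τ).mpr hu20
  obtain ⟨b, hb⟩ := hτ cst
  have hb0 : algebraMap Kb (FK (N0 * q)) b ≠ 0 := by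
    rw [← hb]
    exact (map_ne_zero τ).mpr ((map_ne_zero _).mpr hcst)
  have hb0' : b ≠ 0 := fun h0 => hb0 (by rw [h0, map_zero])
  -- `m1 ∣ div u2`: `ord (τ u2) = (qq - 1) ord (τ x) - m1 ord (τ g)`
  have hordu2 : ∀ P : Place Kb (FK (N0 * q)), (m1 : ℤ) ∣ P.ord (τ u2) := by
    intro P
    have h1 : P.ord (τ x ^ (qq - 1)) = P.ord (algebraMap Kb (FK (N0 * q)) b * τ g ^ m1 * τ u2) := by
      rw [← map_pow, hxu, map_mul, map_mul, map_pow, hb]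
    rw [← zpow_natCast, Place.ord_zpow, Place.ord_mul _ (mul_ne_zero hb0 (pow_ne_zero _ hτg0)) hτu20,
      Place.ord_mul _ hb0 (pow_ne_zero _ hτg0),
      Fermat.Agent.S24.PlaceB.ord_algebraMap P hb0', zero_add, ← zpow_natCast (τ g),
      Place.ord_zpow] at h1
    have h3 : P.ord (τ u2) = ((qq - 1 : ℕ) : ℤ) * P.ord (τ x) - (m1 : ℤ) * P.ord (τ g) := by
      linarith
    rw [h3]
    exact dvd_sub (Dvd.dvd.mul_left ((Int.natCast_dvd_natCast.mpr hm1).trans (hdiv P)) _)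
      (dvd_mul_right _ _)
  obtain ⟨f0, hf0, hU3⟩ := H4 u2 hu20 hU2 hordu2 e1' e2'
  have hτf0 : τ f0 ≠ 0 := (map_ne_zero τ).mpr hf0
  have hu30 : u2 ^ (qq ^ 2 - 1) * f0 ^ m1 ≠ 0 := mul_ne_zero (pow_ne_zero _ hu20) (pow_ne_zero _ hf0)
  -- `m1 ∣ div u3`
  have hord : ∀ P : Place Kb (FK (N0 * q)),
      (m1 : ℤ) ∣ P.ord (τ (u2 ^ (qq ^ 2 - 1) * f0 ^ m1)) := by
    intro P
    rw [map_mul, map_pow, map_pow, Place.ord_mul _ (pow_ne_zero _ hτu20) (pow_ne_zero _ hτf0),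
      ← zpow_natCast, Place.ord_zpow, ← zpow_natCast (τ f0), Place.ord_zpow]
    exact dvd_add (Dvd.dvd.mul_left (hordu2 P) _) (dvd_mul_right _ _)
  have e3 : IsCstPow K0' m1 (u2 ^ (qq ^ 2 - 1) * f0 ^ m1) := H5 _ hu30 hU3 hord
  -- assemble
  obtain ⟨c3, s, hc3, hs, hcs⟩ := e3
  refine ⟨cst ^ (qq ^ 2 - 1) * c3, g ^ (qq ^ 2 - 1) * s * f0⁻¹,
    mul_ne_zero (pow_ne_zero _ hcst) hc3,
    mul_ne_zero (mul_ne_zero (pow_ne_zero _ hg) hs) (inv_ne_zero hf0), ?_⟩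
  have h5 : u2 ^ (qq ^ 2 - 1) = algebraMap K0' F0 c3 * s ^ m1 * (f0⁻¹) ^ m1 := by
    rw [← hcs, mul_assoc, ← mul_pow, mul_inv_cancel₀ hf0, one_pow, mul_one]
  rw [pow_mul, hxu, mul_pow, mul_pow, h5, map_mul, map_pow]
  ring

/-- **The chain**, H4 without divisor hypothesis (special case of `k0UnitGate_of_chain'`). -/
theorem k0UnitGate_of_chain (τ : F0 →+* FK (N0 * q)) (NmA NmB : F0 →* F0') (qq m m1 : ℕ)
    (U2 U3 : F0 → Prop)
    (H3 : ∀ x : F0, x ≠ 0 → IsCstPow K0' m (NmA x) → IsCstPow K0' m (NmB x) →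
      ∃ (cst : K0') (g u2 : F0), cst ≠ 0 ∧ g ≠ 0 ∧
        x ^ (qq - 1) = algebraMap K0' F0 cst * g ^ m1 * u2 ∧ U2 u2 ∧
        IsCstPow K0' m1 (NmA u2) ∧ IsCstPow K0' m1 (NmB u2))
    (H4 : ∀ u2 : F0, u2 ≠ 0 → U2 u2 → IsCstPow K0' m1 (NmA u2) → IsCstPow K0' m1 (NmB u2) →
      ∃ f0 : F0, f0 ≠ 0 ∧ U3 (u2 ^ (qq ^ 2 - 1) * f0 ^ m1))
    (H5 : ∀ u3 : F0, u3 ≠ 0 → U3 u3 →
      (∀ P : Place Kb (FK (N0 * q)), (m1 : ℤ) ∣ P.ord (τ u3)) → IsCstPow K0' m1 u3)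
    (hm1 : m1 ∣ m)
    (hτ : ∀ a : K0', ∃ b : Kb, τ (algebraMap K0' F0 a) = algebraMap Kb (FK (N0 * q)) b) :
    K0UnitGate K0' τ NmA NmB m m1 ((qq - 1) * (qq ^ 2 - 1)) :=
  k0UnitGate_of_chain' τ NmA NmB qq m m1 U2 U3 H3
    (fun u2 h0 hU _ e1 e2 => H4 u2 h0 hU e1 e2) H5 hm1 hτ

/-- **The chain, `ℚ̄`-conclusion form** (H4 WITH the divisor hypothesis `m1 ∣ div u2`): (H5)
concludes `τ u3 = w ^ m1` in `F_{N0 q}` (`= exists_section_ambient` +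
`Finish.isPow_of_section_bar`). -/
theorem k0UnitGateQ_of_chain' (ι : K0' →+* Kb) (τ : F0 →+* FK (N0 * q))
    (hτ : ∀ a : K0', τ (algebraMap K0' F0 a) = algebraMap Kb (FK (N0 * q)) (ι a))
    (NmA NmB : F0 →* F0') (qq m m1 : ℕ) (U2 U3 : F0 → Prop)
    (H3 : ∀ x : F0, x ≠ 0 → IsCstPow K0' m (NmA x) → IsCstPow K0' m (NmB x) →
      ∃ (cst : K0') (g u2 : F0), cst ≠ 0 ∧ g ≠ 0 ∧
        x ^ (qq - 1) = algebraMap K0' F0 cst * g ^ m1 * u2 ∧ U2 u2 ∧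
        IsCstPow K0' m1 (NmA u2) ∧ IsCstPow K0' m1 (NmB u2))
    (H4 : ∀ u2 : F0, u2 ≠ 0 → U2 u2 →
      (∀ P : Place Kb (FK (N0 * q)), (m1 : ℤ) ∣ P.ord (τ u2)) →
      IsCstPow K0' m1 (NmA u2) → IsCstPow K0' m1 (NmB u2) →
      ∃ f0 : F0, f0 ≠ 0 ∧ U3 (u2 ^ (qq ^ 2 - 1) * f0 ^ m1))
    (H5 : ∀ u3 : F0, u3 ≠ 0 → U3 u3 →
      (∀ P : Place Kb (FK (N0 * q)), (m1 : ℤ) ∣ P.ord (τ u3)) →
      ∃ w : FK (N0 * q), w ≠ 0 ∧ τ u3 = w ^ m1)
    (hm1 : m1 ∣ m) (hm10 : m1 ≠ 0) :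
    K0UnitGateQ K0' τ NmA NmB m m1 ((qq - 1) * (qq ^ 2 - 1)) := by
  intro x hx0 hdiv e1 e2
  obtain ⟨cst, g, u2, hcst, hg, hxu, hU2, e1', e2'⟩ := H3 x hx0 e1 e2
  have hu20 : u2 ≠ 0 := by
    rintro rfl
    rw [mul_zero] at hxu
    exact pow_ne_zero _ hx0 hxu
  have hτx0 : τ x ≠ 0 := (map_ne_zero τ).mpr hx0
  have hτg0 : τ g ≠ 0 := (map_ne_zero τ).mpr hg
  have hτu20 : τ u2 ≠ 0 := (map_ne_zero τ).mpr hu20
  have hιc : ι cst ≠ 0 := (map_ne_zero ι).mpr hcst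
  have hb0 : algebraMap Kb (FK (N0 * q)) (ι cst) ≠ 0 := (map_ne_zero _).mpr hιc
  -- `m1 ∣ div u2`
  have hordu2 : ∀ P : Place Kb (FK (N0 * q)), (m1 : ℤ) ∣ P.ord (τ u2) := by
    intro P
    have h1 : P.ord (τ x ^ (qq - 1)) =
        P.ord (algebraMap Kb (FK (N0 * q)) (ι cst) * τ g ^ m1 * τ u2) := by
      rw [← map_pow, hxu, map_mul, map_mul, map_pow, hτ]
    rw [← zpow_natCast, Place.ord_zpow, Place.ord_mul _ (mul_ne_zero hb0 (pow_ne_zero _ hτg0)) hτu20,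
      Place.ord_mul _ hb0 (pow_ne_zero _ hτg0),
      Fermat.Agent.S24.PlaceB.ord_algebraMap P hιc, zero_add, ← zpow_natCast (τ g),
      Place.ord_zpow] at h1
    have h3 : P.ord (τ u2) = ((qq - 1 : ℕ) : ℤ) * P.ord (τ x) - (m1 : ℤ) * P.ord (τ g) := by
      linarith
    rw [h3]
    exact dvd_sub (Dvd.dvd.mul_left ((Int.natCast_dvd_natCast.mpr hm1).trans (hdiv P)) _)
      (dvd_mul_right _ _)
  obtain ⟨f0, hf0, hU3⟩ := H4 u2 hu20 hU2 hordu2 e1' e2'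
  have hτf0 : τ f0 ≠ 0 := (map_ne_zero τ).mpr hf0
  have hu30 : u2 ^ (qq ^ 2 - 1) * f0 ^ m1 ≠ 0 := mul_ne_zero (pow_ne_zero _ hu20) (pow_ne_zero _ hf0)
  -- `m1 ∣ div u3`
  have hord : ∀ P : Place Kb (FK (N0 * q)),
      (m1 : ℤ) ∣ P.ord (τ (u2 ^ (qq ^ 2 - 1) * f0 ^ m1)) := by
    intro P
    rw [map_mul, map_pow, map_pow, Place.ord_mul _ (pow_ne_zero _ hτu20) (pow_ne_zero _ hτf0),
      ← zpow_natCast, Place.ord_zpow, ← zpow_natCast (τ f0), Place.ord_zpow]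
    exact dvd_add (Dvd.dvd.mul_left (hordu2 P) _) (dvd_mul_right _ _)
  obtain ⟨w, hw0, hw⟩ := H5 _ hu30 hU3 hord
  -- the constant `cst ^ (qq ^ 2 - 1)` is an `m1`-th power in `ℚ̄`
  obtain ⟨r, hr⟩ := IsAlgClosed.exists_pow_nat_eq (ι cst ^ (qq ^ 2 - 1)) (Nat.pos_of_ne_zero hm10)
  have hr0 : r ≠ 0 := by
    rintro rfl
    rw [zero_pow hm10] at hr
    exact pow_ne_zero _ hιc hr.symm
  refine ⟨algebraMap Kb (FK (N0 * q)) r * τ g ^ (qq ^ 2 - 1) * w * (τ f0)⁻¹,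
    mul_ne_zero (mul_ne_zero (mul_ne_zero ((map_ne_zero _).mpr hr0) (pow_ne_zero _ hτg0)) hw0)
      (inv_ne_zero hτf0), ?_⟩
  have h5 : τ u2 ^ (qq ^ 2 - 1) = w ^ m1 * ((τ f0)⁻¹) ^ m1 := by
    rw [← hw, map_mul, map_pow, map_pow, mul_assoc, ← mul_pow, mul_inv_cancel₀ hτf0, one_pow,
      mul_one]
  rw [pow_mul, ← map_pow, hxu, map_mul, map_mul, map_pow, hτ, mul_pow, mul_pow, h5, mul_pow,
    mul_pow, mul_pow, ← map_pow, ← map_pow (algebraMap Kb (FK (N0 * q))) r, hr]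
  ring

/-- **The chain, `ℚ̄`-conclusion form**, H4 without divisor hypothesis. -/
theorem k0UnitGateQ_of_chain (ι : K0' →+* Kb) (τ : F0 →+* FK (N0 * q))
    (hτ : ∀ a : K0', τ (algebraMap K0' F0 a) = algebraMap Kb (FK (N0 * q)) (ι a))
    (NmA NmB : F0 →* F0') (qq m m1 : ℕ) (U2 U3 : F0 → Prop)
    (H3 : ∀ x : F0, x ≠ 0 → IsCstPow K0' m (NmA x) → IsCstPow K0' m (NmB x) →
      ∃ (cst : K0') (g u2 : F0), cst ≠ 0 ∧ g ≠ 0 ∧
        x ^ (qq - 1) = algebraMap K0' F0 cst * g ^ m1 * u2 ∧ U2 u2 ∧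
        IsCstPow K0' m1 (NmA u2) ∧ IsCstPow K0' m1 (NmB u2))
    (H4 : ∀ u2 : F0, u2 ≠ 0 → U2 u2 → IsCstPow K0' m1 (NmA u2) → IsCstPow K0' m1 (NmB u2) →
      ∃ f0 : F0, f0 ≠ 0 ∧ U3 (u2 ^ (qq ^ 2 - 1) * f0 ^ m1))
    (H5 : ∀ u3 : F0, u3 ≠ 0 → U3 u3 →
      (∀ P : Place Kb (FK (N0 * q)), (m1 : ℤ) ∣ P.ord (τ u3)) →
      ∃ w : FK (N0 * q), w ≠ 0 ∧ τ u3 = w ^ m1)
    (hm1 : m1 ∣ m) (hm10 : m1 ≠ 0) :
    K0UnitGateQ K0' τ NmA NmB m m1 ((qq - 1) * (qq ^ 2 - 1)) :=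
  k0UnitGateQ_of_chain' ι τ hτ NmA NmB qq m m1 U2 U3 H3
    (fun u2 h0 hU _ e1 e2 => H4 u2 h0 hU e1 e2) H5 hm1 hm10

end PartC

end Fermat.Agent.GL.Gate
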