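/-
GATE-L / K0-BRIDGE part 1 (helper17): **linear independence survives an algebraic extension of the
field of constants**, for subfields of Laurent series.

`L ⊆ Ω` algebraic, `ι_* = coeffMap (algebraMap L Ω)`, `S ⊆ L((q))`, `E = L(S)`, `E_Ω = Ω(ι_* S)`
(helper80 `GL/Base/RatDescent`).  If a family `b : ι → L((q))` is linearly independent over `E`
(acting by multiplication) then `ι_* b` is linearly independent over `E_Ω`:

* `mapLin_mul_coeffMap` : the coefficientwise retraction `φ_*` is `ι_* L((q))`-linear;
* `eq_zero_of_forall_mapLin` : `x = 0` iff `φ_* x = 0` for every `L`-linear `φ : Ω → L`;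
* **`eq_zero_of_sum_mul_coeffMap`** : `∑ g_j * ι_* b_j = 0`, `g_j ∈ E_Ω` ⟹ all `g_j = 0`.
-/
import Mathlib
import Fermat.Agent.GL.Base.RatDescent

set_option autoImplicit false

noncomputable section

namespace Fermat.Agent.GL.Gate.ConstExt

open ModularCurve HahnSeries Fermat.Agent.GL.Base.RatDescent

variable {L Om : Type*} [Field L] [Field Om] [Algebra L Om]

/-- the support of `φ_* x` is contained in the support of `x` -/
theorem support_mapLin_subset (φ : Om →ₗ[L] L) (x : LaurentSeries Om) :
    (mapLin φ x).support ⊆ x.support := by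
  intro n hn
  rw [HahnSeries.mem_support] at hn ⊢
  intro h0
  apply hn
  rw [mapLin_coeff, h0, map_zero]

theorem support_coeffMap_subset (z : LaurentSeries L) :
    (coeffMap (algebraMap L Om) z).support ⊆ z.support := by
  intro n hn
  rw [HahnSeries.mem_support] at hn ⊢
  intro h0
  apply hn
  rw [coeffMap_coeff, h0, map_zero]

/-- **`φ_*` is `ι_* L((q))`-linear**: `φ_* (x · ι_* z) = φ_* x · z`. -/
theorem mapLin_mul_coeffMap (φ : Om →ₗ[L] L) (x : LaurentSeries Om) (z : LaurentSeries L) :
    mapLin φ (x * coeffMap (algebraMap L Om) z) = mapLin φ x * z := by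
  ext n
  rw [mapLin_coeff, HahnSeries.coeff_mul_right' z.isPWO_support (support_coeffMap_subset z),
    HahnSeries.coeff_mul_left' x.isPWO_support (support_mapLin_subset φ x), map_sum]
  refine Finset.sum_congr rfl fun ij _ => ?_
  rw [mapLin_coeff, coeffMap_coeff, mul_comm (x.coeff ij.1), ← Algebra.smul_def, map_smul,
    smul_eq_mul, mul_comm]

/-- a Laurent series all of whose coefficientwise retractions vanish is zero -/
theorem eq_zero_of_forall_mapLin {x : LaurentSeries Om}
    (h : ∀ φ : Om →ₗ[L] L, mapLin φ x = 0) : x = 0 := by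
  ext n
  rw [HahnSeries.coeff_zero]
  refine (Module.forall_dual_apply_eq_zero_iff L (x.coeff n)).mp fun φ => ?_
  have := congrArg (fun y : LaurentSeries L => y.coeff n) (h φ)
  simpa using this

variable (S : Set (LaurentSeries L)) [Algebra.IsAlgebraic L Om]

/-- **Linear independence survives the extension of constants.** -/
theorem eq_zero_of_sum_mul_coeffMap {ι : Type*} (s : Finset ι) (b : ι → LaurentSeries L)
    (hb : ∀ e : ι → LaurentSeries L, (∀ j ∈ s, e j ∈ IntermediateField.adjoin L S) →
      ∑ j ∈ s, e j * b j = 0 → ∀ j ∈ s, e j = 0)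
    (g : ι → LaurentSeries Om)
    (hg : ∀ j ∈ s, g j ∈ IntermediateField.adjoin Om (coeffMap (algebraMap L Om) '' S))
    (hsum : ∑ j ∈ s, g j * coeffMap (algebraMap L Om) (b j) = 0) :
    ∀ j ∈ s, g j = 0 := by
  intro j hj
  refine eq_zero_of_forall_mapLin (L := L) fun φ => ?_
  refine hb (fun j => mapLin φ (g j)) (fun j hj => map_retraction_mem S φ (hg j hj)) ?_ j hj
  have := congrArg (mapLin φ) hsum
  rw [map_sum, map_zero] at this
  rw [← this]
  exact Finset.sum_congr rfl fun j _ => (mapLin_mul_coeffMap φ (g j) (b j)).symm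

end Fermat.Agent.GL.Gate.ConstExt
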