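/-
GATE-L / K0-BRIDGE part 2 (helper17): **norm base change along an algebraic extension of the field
of constants**, for the modular function fields.

`L ⊆ ℚ̄` algebraic, `L(X₀(N)) = modularFunctionFieldFullC L N`, `ι_N = toFN N (algebraMap L ℚ̄) :
L(X₀(N)) → F_N = ℚ̄(X₀(N))` (helper26).  For an `L`-algebra hom `aK : L(X₀(N)) → L(X₀(N'))` and a
`ℚ̄`-algebra hom `ψ' : F_N → F_{N'}` with `ι_{N'} ∘ aK = ψ' ∘ ι_N` and `F_{N'}` finite along `ψ'`:

* `linearIndependent_toFN` : `ι_{N'}` maps `L(X₀(N))`-linearly independent families to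
  `F_N`-linearly independent families (constants stay linearly disjoint);
* `adjoin_range_toFN_eq_top` : `F_{N'} = F_N · ι_{N'}(L(X₀(N')))`;
* `finite_of_finiteAlong`, `finrank_eq_of_finiteAlong` : `L(X₀(N'))` is finite over `L(X₀(N))` of
  the SAME degree;
* **`normAlong_toFN`** : `Nm_{ψ'} (ι_{N'} y) = ι_N (Nm_{aK} y)`.

Instances: `aK` = the `K₀`-rational degeneracy maps (helper67 `alphaK0`, `betaK0`), `ψ' = alphaB`,
`betaB`.
-/
import Mathlib
import Fermat.Agent.GL.Gate.ConstExt
import Fermat.Agent.GL.Descent.NormBC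
import Fermat.Agent.GL.Base.RatDescentFullC
import Fermat.Agent.GL.Val.CuspCoeff
import Fermat.Agent.GJ.HInputs.OrdNorm

set_option autoImplicit false
set_option linter.unusedSectionVars false
set_option linter.style.haveILetI false

noncomputable section

namespace Fermat.Agent.GL.Gate.NormConst

open ModularCurve HahnSeries AlgebraicCurve Module
open Fermat.Agent.S24 Fermat.Agent.GL.Base.RatDescent Fermat.Agent.GL.Gate.ConstExt
open Fermat.Agent.GL.Val.CuspCoeff

local notation "Qb" => AlgebraicClosure ℚ

/-! ### Abstract: the degree of a square from generation + linear independence -/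

section Abstract

variable {F F' G G' : Type*} [Field F] [Field F'] [Field G] [Field G']

/-- for a commutative square of fields with `G' = G · i'(F')` in which `i'` preserves linear
independence, the degrees agree -/
theorem finrank_eq_of_linearIndependent (ψ : F →+* F') (ψ' : G →+* G') (i : F →+* G)
    (i' : F' →+* G') (hsq : i'.comp ψ = ψ'.comp i)
    (hfin : @FiniteDimensional F F' _ _ ψ.toAlgebra.toModule)
    (hgen : @Algebra.adjoin G G' _ _ ψ'.toAlgebra (Set.range i') = ⊤)
    (hli : ∀ (n : ℕ) (b : Fin n → F'),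
      @LinearIndependent (Fin n) F F' b _ _ ψ.toAlgebra.toModule →
      @LinearIndependent (Fin n) G G' (fun j => i' (b j)) _ _ ψ'.toAlgebra.toModule) :
    @finrank G G' _ _ ψ'.toAlgebra.toModule = @finrank F F' _ _ ψ.toAlgebra.toModule := by
  let _ : Algebra F F' := ψ.toAlgebra
  let _ : Algebra G G' := ψ'.toAlgebra
  let _ : Algebra F G := i.toAlgebra
  let _ : Algebra F' G' := i'.toAlgebra
  let _ : Algebra F G' := (i'.comp ψ).toAlgebra
  have : IsScalarTower F F' G' := IsScalarTower.of_algebraMap_eq fun _ => rfl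
  have : IsScalarTower F G G' := IsScalarTower.of_algebraMap_eq fun a => by
    change (i'.comp ψ) a = ψ' (i a)
    rw [hsq]; rfl
  have : FiniteDimensional F F' := hfin
  let b : Basis (Fin (finrank F F')) F F' := Module.finBasis F F'
  have hli' := hli _ b b.linearIndependent
  have hspan := Fermat.Agent.GL.Descent.NormBC.span_image_basis_eq_top (G := G) b hgen
  let B : Basis (Fin (finrank F F')) G G' := Basis.mk hli' hspan
  rw [Module.finrank_eq_card_basis B, Fintype.card_fin]

end Abstract

variable {L : Type*} [Field L] [Algebra L Qb]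
variable {N N' : ℕ} [NeZero N] [NeZero N']

/-- `ι_N` on Laurent series -/
theorem coe_toFN' (x : modularFunctionFieldFullC L N) :
    ((toFN N (algebraMap L Qb) x : FN N) : LaurentSeries Qb) =
      coeffMap (algebraMap L Qb) (x : LaurentSeries L) := rfl

variable (aK : modularFunctionFieldFullC L N →ₐ[L] modularFunctionFieldFullC L N')
  (ψ' : FN N →ₐ[Qb] FN N')
  (hsq : ∀ x, toFN N' (algebraMap L Qb) (aK x) = ψ' (toFN N (algebraMap L Qb) x))

/-- the set of Laurent series of `aK (L(X₀(N)))` -/
def imgSet : Set (LaurentSeries L) :=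
  Set.range fun f : modularFunctionFieldFullC L N => ((aK f : modularFunctionFieldFullC L N') :
    LaurentSeries L)

/-- `L(imgSet) = imgSet` -/
theorem mem_adjoin_imgSet {e : LaurentSeries L} (he : e ∈ IntermediateField.adjoin L (imgSet aK)) :
    ∃ f : modularFunctionFieldFullC L N,
      ((aK f : modularFunctionFieldFullC L N') : LaurentSeries L) = e := by
  let ρ : modularFunctionFieldFullC L N →+* LaurentSeries L :=
    ((modularFunctionFieldFullC L N').val : _ →+* LaurentSeries L).comp aK.toRingHom
  have key : (IntermediateField.adjoin L (imgSet aK)).toSubfield ≤ ρ.fieldRange := by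
    apply IntermediateField.adjoin_le_subfield
    · rintro _ ⟨c, rfl⟩
      refine ⟨algebraMap L _ c, ?_⟩
      show ((aK (algebraMap L _ c) : modularFunctionFieldFullC L N') : LaurentSeries L) = _
      rw [aK.commutes]
      rfl
    · rintro _ ⟨f, rfl⟩
      exact ⟨f, rfl⟩
  obtain ⟨f, hf⟩ := key he
  exact ⟨f, hf⟩

include hsq in
/-- `ψ' (F_N) ⊆ ℚ̄(ι_* imgSet)` -/
theorem coe_map_mem_adjoin (g : FN N) :
    ((ψ' g : FN N') : LaurentSeries Qb) ∈
      IntermediateField.adjoin Qb (coeffMap (algebraMap L Qb) '' imgSet aK) := by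
  set T := IntermediateField.adjoin Qb (coeffMap (algebraMap L Qb) '' imgSet aK) with hT
  have hg : (g : LaurentSeries Qb) ∈
      IntermediateField.adjoin Qb (coeffMap (algebraMap L Qb) '' divisorExpansionsC L N) := by
    have h1 : (g : LaurentSeries Qb) ∈ modularFunctionFieldFullC Qb N := by
      rw [← Fermat.Agent.S24_helper62.modularFunctionFieldBar_eq N]
      exact g.2
    rw [coeffMap_image_divisorExpansionsC (L := L) (Om := Qb) N]
    exact h1
  have key : ∀ x (_ : x ∈ IntermediateField.adjoin Qb
      (coeffMap (algebraMap L Qb) '' divisorExpansionsC L N)),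
      ∀ hx' : x ∈ modularFunctionFieldBar N, ((ψ' ⟨x, hx'⟩ : FN N') : LaurentSeries Qb) ∈ T := by
    intro x hx
    refine IntermediateField.adjoin_induction Qb
      (p := fun x _ => ∀ hx' : x ∈ modularFunctionFieldBar N,
        ((ψ' ⟨x, hx'⟩ : FN N') : LaurentSeries Qb) ∈ T) ?_ ?_ ?_ ?_ ?_ hx
    · rintro _ ⟨d, hd, rfl⟩ hx'
      have hd' : d ∈ modularFunctionFieldFullC L N := IntermediateField.subset_adjoin L _ hd
      have h1 : (⟨coeffMap (algebraMap L Qb) d, hx'⟩ : FN N) =
          toFN N (algebraMap L Qb) ⟨d, hd'⟩ := Subtype.ext rfl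
      rw [h1, ← hsq, coe_toFN']
      exact IntermediateField.subset_adjoin Qb _ ⟨_, ⟨⟨d, hd'⟩, rfl⟩, rfl⟩
    · intro c hx'
      have h1 : (⟨algebraMap Qb (LaurentSeries Qb) c, hx'⟩ : FN N) = algebraMap Qb (FN N) c :=
        Subtype.ext rfl
      rw [h1, ψ'.commutes]
      exact T.algebraMap_mem c
    · intro x y hx hy ihx ihy hxy
      have hx' : x ∈ modularFunctionFieldBar N := by
        rw [Fermat.Agent.S24_helper62.modularFunctionFieldBar_eq N, modularFunctionFieldFullC,
          ← coeffMap_image_divisorExpansionsC (L := L) (Om := Qb) N]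
        exact hx
      have hy' : y ∈ modularFunctionFieldBar N := by
        rw [Fermat.Agent.S24_helper62.modularFunctionFieldBar_eq N, modularFunctionFieldFullC,
          ← coeffMap_image_divisorExpansionsC (L := L) (Om := Qb) N]
        exact hy
      have h1 : (⟨x + y, hxy⟩ : FN N) = ⟨x, hx'⟩ + ⟨y, hy'⟩ := Subtype.ext rfl
      rw [h1, map_add]
      exact T.add_mem (ihx hx') (ihy hy')
    · intro x hx ihx hxi
      have hx' : x ∈ modularFunctionFieldBar N := by
        rw [Fermat.Agent.S24_helper62.modularFunctionFieldBar_eq N, modularFunctionFieldFullC,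
          ← coeffMap_image_divisorExpansionsC (L := L) (Om := Qb) N]
        exact hx
      have h1 : (⟨x⁻¹, hxi⟩ : FN N) = (⟨x, hx'⟩ : FN N)⁻¹ := Subtype.ext rfl
      rw [h1, map_inv₀]
      exact T.inv_mem (ihx hx')
    · intro x y hx hy ihx ihy hxy
      have hx' : x ∈ modularFunctionFieldBar N := by
        rw [Fermat.Agent.S24_helper62.modularFunctionFieldBar_eq N, modularFunctionFieldFullC,
          ← coeffMap_image_divisorExpansionsC (L := L) (Om := Qb) N]
        exact hx
      have hy' : y ∈ modularFunctionFieldBar N := by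
        rw [Fermat.Agent.S24_helper62.modularFunctionFieldBar_eq N, modularFunctionFieldFullC,
          ← coeffMap_image_divisorExpansionsC (L := L) (Om := Qb) N]
        exact hy
      have h1 : (⟨x * y, hxy⟩ : FN N) = ⟨x, hx'⟩ * ⟨y, hy'⟩ := Subtype.ext rfl
      rw [h1, map_mul]
      exact T.mul_mem (ihx hx') (ihy hy')
  exact key _ hg g.2

variable [Algebra.IsAlgebraic L Qb]

include hsq in
/-- **constants stay linearly disjoint**: `ι_{N'}` maps families which are linearly independent over
`L(X₀(N))` (along `aK`) to families which are linearly independent over `F_N` (along `ψ'`). -/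
theorem linearIndependent_toFN {ι : Type*} (b : ι → modularFunctionFieldFullC L N')
    (hb : @LinearIndependent ι (modularFunctionFieldFullC L N) (modularFunctionFieldFullC L N') b _ _
      aK.toRingHom.toAlgebra.toModule) :
    @LinearIndependent ι (FN N) (FN N') (fun j => toFN N' (algebraMap L Qb) (b j)) _ _
      ψ'.toRingHom.toAlgebra.toModule := by
  letI : Algebra (modularFunctionFieldFullC L N) (modularFunctionFieldFullC L N') :=
    aK.toRingHom.toAlgebra
  letI : Algebra (FN N) (FN N') := ψ'.toRingHom.toAlgebra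
  classical
  rw [linearIndependent_iff'] at hb ⊢
  intro s g hsum j hj
  -- the relation on Laurent series
  have hsum' : ∑ j ∈ s, ((ψ' (g j) : FN N') : LaurentSeries Qb) *
      coeffMap (algebraMap L Qb) ((b j : modularFunctionFieldFullC L N') : LaurentSeries L) = 0 := by
    have h1 := congrArg (fun z : FN N' => (z : LaurentSeries Qb)) hsum
    simp only [Algebra.smul_def] at h1
    rw [show (((0 : FN N') : FN N') : LaurentSeries Qb) = 0 from rfl] at h1
    rw [← h1]
    have h2 : ∀ z : Finset ι, (((∑ j ∈ z, algebraMap (FN N) (FN N') (g j) *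
        toFN N' (algebraMap L Qb) (b j) : FN N')) : LaurentSeries Qb) =
        ∑ j ∈ z, ((ψ' (g j) : FN N') : LaurentSeries Qb) *
          coeffMap (algebraMap L Qb) ((b j : modularFunctionFieldFullC L N') : LaurentSeries L) := by
      intro z
      induction z using Finset.induction_on with
      | empty => simp
      | insert a z ha ih =>
        rw [Finset.sum_insert ha, Finset.sum_insert ha, ← ih]
        rfl
    exact (h2 s).symm
  have key := eq_zero_of_sum_mul_coeffMap (L := L) (Om := Qb) (imgSet aK) s
    (fun j => ((b j : modularFunctionFieldFullC L N') : LaurentSeries L)) ?_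
    (fun j => ((ψ' (g j) : FN N') : LaurentSeries Qb))
    (fun j _ => coe_map_mem_adjoin aK ψ' hsq (g j)) hsum' j hj
  · have h3 : ψ' (g j) = 0 := Subtype.ext key
    exact (map_eq_zero ψ').mp h3
  · intro e he hes
    have hf : ∀ j, ∃ f : modularFunctionFieldFullC L N, j ∈ s →
        ((aK f : modularFunctionFieldFullC L N') : LaurentSeries L) = e j := by
      intro j
      by_cases hj : j ∈ s
      · obtain ⟨f, hf⟩ := mem_adjoin_imgSet aK (he j hj)
        exact ⟨f, fun _ => hf⟩
      · exact ⟨0, fun h => absurd h hj⟩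
    choose f hf using hf
    have h4 : ∑ j ∈ s, f j • b j = 0 := by
      refine Subtype.ext ?_
      rw [show (((0 : modularFunctionFieldFullC L N') : modularFunctionFieldFullC L N') :
        LaurentSeries L) = 0 from rfl, ← hes]
      have h5 : ∀ z : Finset ι, z ⊆ s → (((∑ j ∈ z, f j • b j : modularFunctionFieldFullC L N')) :
          LaurentSeries L) = ∑ j ∈ z, e j * ((b j : modularFunctionFieldFullC L N') :
            LaurentSeries L) := by
        intro z
        induction z using Finset.induction_on with
        | empty => intro _; simp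
        | insert a z ha ih =>
          intro hz
          rw [Finset.sum_insert ha, Finset.sum_insert ha,
            ← ih (fun x hx => hz (Finset.mem_insert_of_mem hx)),
            ← hf a (hz (Finset.mem_insert_self a z))]
          rfl
      exact h5 s (Finset.Subset.refl s)
    intro j hj
    have h6 := hb s f h4 j hj
    rw [← hf j hj, h6, map_zero]
    rfl

omit [Algebra.IsAlgebraic L Qb] in
include hsq in
/-- **`F_{N'} = F_N · ι_{N'}(L(X₀(N')))`** (generation, along `ψ'`). -/
theorem adjoin_range_toFN_eq_top (hfin : FiniteAlong Qb ψ') :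
    @Algebra.adjoin (FN N) (FN N') _ _ ψ'.toRingHom.toAlgebra
      (Set.range (toFN N' (algebraMap L Qb))) = ⊤ := by
  letI : Algebra (FN N) (FN N') := ψ'.toRingHom.toAlgebra
  have hfin' : Module.Finite (FN N) (FN N') := hfin
  have halg : Algebra.IsAlgebraic (FN N) (FN N') := Algebra.IsAlgebraic.of_finite _ _
  set T : Subalgebra (FN N) (FN N') :=
    Algebra.adjoin (FN N) (Set.range (toFN N' (algebraMap L Qb))) with hT
  have hfield : IsField T := Subalgebra.isField_of_algebraic T
  have hinv : ∀ z : FN N', z ∈ T → z⁻¹ ∈ T := by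
    intro z hz
    by_cases hz0 : z = 0
    · rw [hz0, inv_zero]; exact T.zero_mem
    · obtain ⟨w, hw⟩ := hfield.mul_inv_cancel (a := ⟨z, hz⟩)
        (fun h => hz0 (congrArg Subtype.val h))
      have h1 : z * (w : FN N') = 1 := congrArg Subtype.val hw
      have h2 : z⁻¹ = (w : FN N') := by
        rw [inv_eq_iff_eq_inv, eq_comm]
        exact inv_eq_of_mul_eq_one_left h1
      rw [h2]; exact w.2
  have key : ∀ x (_ : x ∈ IntermediateField.adjoin Qb
      (coeffMap (algebraMap L Qb) '' divisorExpansionsC L N')),
      ∀ hx' : x ∈ modularFunctionFieldBar N', (⟨x, hx'⟩ : FN N') ∈ T := by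
    have hmem : ∀ x, x ∈ IntermediateField.adjoin Qb
        (coeffMap (algebraMap L Qb) '' divisorExpansionsC L N') → x ∈ modularFunctionFieldBar N' := by
      intro x hx
      rw [Fermat.Agent.S24_helper62.modularFunctionFieldBar_eq N', modularFunctionFieldFullC,
        ← coeffMap_image_divisorExpansionsC (L := L) (Om := Qb) N']
      exact hx
    intro x hx
    refine IntermediateField.adjoin_induction Qb
      (p := fun x _ => ∀ hx' : x ∈ modularFunctionFieldBar N', (⟨x, hx'⟩ : FN N') ∈ T)
      ?_ ?_ ?_ ?_ ?_ hx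
    · rintro _ ⟨d, hd, rfl⟩ hx'
      have hd' : d ∈ modularFunctionFieldFullC L N' := IntermediateField.subset_adjoin L _ hd
      have h1 : (⟨coeffMap (algebraMap L Qb) d, hx'⟩ : FN N') =
          toFN N' (algebraMap L Qb) ⟨d, hd'⟩ := Subtype.ext rfl
      rw [h1]
      exact Algebra.subset_adjoin ⟨_, rfl⟩
    · intro c hx'
      have h1 : (⟨algebraMap Qb (LaurentSeries Qb) c, hx'⟩ : FN N') =
          algebraMap (FN N) (FN N') (algebraMap Qb (FN N) c) := by
        show _ = ψ' (algebraMap Qb (FN N) c)
        rw [ψ'.commutes]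
        exact Subtype.ext rfl
      rw [h1]
      exact T.algebraMap_mem _
    · intro x y hx hy ihx ihy hxy
      have h1 : (⟨x + y, hxy⟩ : FN N') = ⟨x, hmem x hx⟩ + ⟨y, hmem y hy⟩ := Subtype.ext rfl
      rw [h1]
      exact T.add_mem (ihx _) (ihy _)
    · intro x hx ihx hxi
      have h1 : (⟨x⁻¹, hxi⟩ : FN N') = (⟨x, hmem x hx⟩ : FN N')⁻¹ := Subtype.ext rfl
      rw [h1]
      exact hinv _ (ihx _)
    · intro x y hx hy ihx ihy hxy
      have h1 : (⟨x * y, hxy⟩ : FN N') = ⟨x, hmem x hx⟩ * ⟨y, hmem y hy⟩ := Subtype.ext rfl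
      rw [h1]
      exact T.mul_mem (ihx _) (ihy _)
  rw [eq_top_iff]
  rintro z -
  have hz : (z : LaurentSeries Qb) ∈ IntermediateField.adjoin Qb
      (coeffMap (algebraMap L Qb) '' divisorExpansionsC L N') := by
    have h1 : (z : LaurentSeries Qb) ∈ modularFunctionFieldFullC Qb N' := by
      rw [← Fermat.Agent.S24_helper62.modularFunctionFieldBar_eq N']
      exact z.2
    rw [coeffMap_image_divisorExpansionsC (L := L) (Om := Qb) N']
    exact h1
  exact key _ hz z.2

include hsq in
/-- `L(X₀(N'))` is finite over `L(X₀(N))` along `aK` as soon as `F_{N'}` is finite along `ψ'` -/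
theorem finite_of_finiteAlong (hfin : FiniteAlong Qb ψ') :
    @Module.Finite (modularFunctionFieldFullC L N) (modularFunctionFieldFullC L N') _ _
      aK.toRingHom.toAlgebra.toModule := by
  letI : Algebra (modularFunctionFieldFullC L N) (modularFunctionFieldFullC L N') :=
    aK.toRingHom.toAlgebra
  letI : Algebra (FN N) (FN N') := ψ'.toRingHom.toAlgebra
  have hfin' : Module.Finite (FN N) (FN N') := hfin
  rw [← Module.rank_lt_aleph0_iff]
  refine lt_of_le_of_lt (rank_le (n := finrank (FN N) (FN N')) fun s hs => ?_)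
    Cardinal.natCast_lt_aleph0
  have h1 := linearIndependent_toFN aK ψ' hsq (fun i : s => (i : modularFunctionFieldFullC L N')) hs
  have h2 := h1.fintype_card_le_finrank
  rwa [Fintype.card_coe] at h2

include hsq in
/-- **the degrees over `L` and over `ℚ̄` agree** -/
theorem finrank_eq_of_finiteAlong (hfin : FiniteAlong Qb ψ') :
    @finrank (FN N) (FN N') _ _ ψ'.toRingHom.toAlgebra.toModule =
      @finrank (modularFunctionFieldFullC L N) (modularFunctionFieldFullC L N') _ _
        aK.toRingHom.toAlgebra.toModule :=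
  finrank_eq_of_linearIndependent aK.toRingHom ψ'.toRingHom
    (toFN N (algebraMap L Qb)) (toFN N' (algebraMap L Qb)) (RingHom.ext fun x => hsq x)
    (finite_of_finiteAlong aK ψ' hsq hfin) (adjoin_range_toFN_eq_top aK ψ' hsq hfin)
    (fun _ b hb => linearIndependent_toFN aK ψ' hsq b hb)

include hsq in
/-- **Norm base change along the extension of constants** `L ⊆ ℚ̄`:
`Nm_{ψ'} (ι_{N'} y) = ι_N (Nm_{aK} y)`. -/
theorem normAlong_toFN (hfin : FiniteAlong Qb ψ') (y : modularFunctionFieldFullC L N') :
    Fermat.Agent.GJ.HInputs.normAlong ψ' (toFN N' (algebraMap L Qb) y) =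
      toFN N (algebraMap L Qb)
        (@Algebra.norm (modularFunctionFieldFullC L N) (modularFunctionFieldFullC L N') _ _
          aK.toRingHom.toAlgebra y) :=
  Fermat.Agent.GL.Descent.NormBC.norm_ringHom_square aK.toRingHom ψ'.toRingHom
    (toFN N (algebraMap L Qb)) (toFN N' (algebraMap L Qb)) (RingHom.ext fun x => hsq x)
    (finite_of_finiteAlong aK ψ' hsq hfin) (finrank_eq_of_finiteAlong aK ψ' hsq hfin)
    (adjoin_range_toFN_eq_top aK ψ' hsq hfin) y

end Fermat.Agent.GL.Gate.NormConst
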