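/-
GATE-L / K0-BRIDGE part 3 (helper17): **the unit gate over `ℚ̄` from the unit gate over `K₀`**.

`P | q` a place of `ℚ̄`, `K₀ = ℚ̄^{I(P)}`, `K₀(X₀(N)) = modularFunctionFieldFullC (K0 P) N`
(helper45/helper26: the field on which the three valuations `w₁ w₂ w₃` of the geometric stack live),
`toFN0 : K₀(X₀(N)) → F_N = ℚ̄(X₀(N))`.  For `K₀`-algebra homs
`aK bK : K₀(X₀(N0)) → K₀(X₀(N0 q))` lifting the two degeneracy maps `alphaB`, `betaB`
(helper67 `alphaK0`, `betaK0`):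

* `UnitGateK0 P N0 q m m1 C aK bK` : every unit `y` of `K₀(X₀(N0 q))` with `m ∣ div y` (over `ℚ̄`)
  whose two norms `Nm_{aK} y`, `Nm_{bK} y` are `constant * m-th power` IN `K₀(X₀(N0))` satisfies
  `y ^ C = constant * m1-th power` in `K₀(X₀(N0 q))`;
* **`unitGateAB_of_K0`** : `UnitGateK0 … → UnitGateAB N0 q m m1 P C` (helper24's unit form of the
  geometric gate, `m1 ∣ m ≠ 0`).

Ingredients: helper1 `exists_invariant_kum_rep` (an `I`-invariant class has an `I`-FIXED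
representative) and `exists_invariant_root` (an `m`-th root of a fixed function is fixed up to a fixed
constant), helper80 `exists_mapC_of_fixed` (`F_N^I = K₀(X₀(N))`), and `NormConst.normAlong_toFN` (the
norm commutes with the extension of constants).
-/
import Mathlib
import Fermat.Agent.GL.Gate.NormConst
import Fermat.Agent.GL.Val.CuspK0
import Fermat.Agent.GL.Coh.InvDescentUniq
import Fermat.Agent.GL.Base.RatDescentFullC
import Fermat.Agent.GL.Hecke.GeomGateAB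

set_option autoImplicit false
set_option linter.unusedSectionVars false
set_option linter.style.haveILetI false

noncomputable section

namespace Fermat.Agent.GL.Gate.K0Bridge

open ModularCurve HahnSeries AlgebraicCurve
open Fermat.Agent.S24 Fermat.Agent.GJ Fermat.Agent.GJ.HN Fermat.Agent.GJ.HInputs
open Fermat.Agent.GJ.KumGroup Fermat.Agent.GJ.Kum.KumType
open Fermat.Agent.GK.UTr Fermat.Agent.GL.Hecke
open Fermat.Agent.GL.Val.GaussK0 Fermat.Agent.GL.Val.CuspK0 Fermat.Agent.GL.Val.CuspCoeff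
open Fermat.Agent.GL.Local.InertiaField Fermat.Agent.GL.Base.RatDescent
open Fermat.Agent.GL.Coh.InvDescentFK Fermat.Agent.GL.Coh.InvDescentUniq

local notation "Qb" => AlgebraicClosure ℚ
local notation "GQ'" => (AlgebraicClosure ℚ ≃ₐ[ℚ] AlgebraicClosure ℚ)

variable (A : ValuationSubring Qb)

/-- `K₀(X₀(N))` -/
abbrev FC0 (N : ℕ) : Type := ↥(modularFunctionFieldFullC (K0 A) N)

section Basic

variable (N : ℕ) [NeZero N]

theorem toFN0_injective : Function.Injective (toFN0 A N) := (toFN0 A N).injective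

/-- constants -/
theorem toFN0_algebraMap (c : K0 A) :
    toFN0 A N (algebraMap (K0 A) (FC0 A N) c) = algebraMap Kbar (FN N) (ι0 A c) :=
  toFN_algebraMap N (ι0 A) c

/-- **elements of `K₀(X₀(N))` are fixed by the inertia group** -/
theorem arithmeticRingAut_toFN0 (z : FC0 A N) {σ : GQ'} (hσ : σ ∈ A.inertiaSubgroupIn ℚ) :
    arithmeticRingAut (modularFunctionFieldFull N) σ (toFN0 A N z) = toFN0 A N z := by
  apply Subtype.ext
  rw [coe_arithmeticRingAut_apply, coe_toFN, coeffMap_coeffMap]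
  refine coeffMap_congr (RingHom.ext fun a => ?_) _
  exact (mem_inertiaField_iff A (ι0 A a)).1 ((toK0 A).symm a).2 σ hσ

/-- **`F_N^{I} = K₀(X₀(N))`** in `toFN0` form -/
theorem exists_toFN0_eq_of_fixed (x : FN N)
    (hx : ∀ σ ∈ A.inertiaSubgroupIn ℚ, arithmeticRingAut (modularFunctionFieldFull N) σ x = x) :
    ∃ y : FC0 A N, toFN0 A N y = x := by
  obtain ⟨y, hy⟩ := exists_mapC_of_fixed A N x hx
  obtain ⟨y', hy'⟩ : ∃ y' : FC0 A N,
      ((mapK0 A N y' : modularFunctionFieldFullC Qb N) : LaurentSeries Qb) =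
        (x : LaurentSeries Qb) := ⟨y, hy⟩
  refine ⟨y', Subtype.ext ?_⟩
  rw [coe_toFN0_eq_coe_mapK0]
  exact hy'

/-- constants fixed by the inertia group come from `K₀` -/
theorem exists_ι0_eq_of_fixed (a : Qb) (ha : ∀ σ ∈ A.inertiaSubgroupIn ℚ, σ a = a) :
    ∃ c : K0 A, ι0 A c = a :=
  (mem_range_ι0_iff A a).2 ha

end Basic

section Norm

variable {N N' : ℕ} [NeZero N] [NeZero N']

/-- **the norm commutes with the extension of constants `K₀ ⊆ ℚ̄`** -/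
theorem normAlong_toFN0 (aK : FC0 A N →ₐ[K0 A] FC0 A N') (ψ' : FN N →ₐ[Qb] FN N')
    (hsq : ∀ x, toFN0 A N' (aK x) = ψ' (toFN0 A N x)) (hfin : FiniteAlong Qb ψ')
    (y : FC0 A N') :
    normAlong ψ' (toFN0 A N' y) =
      toFN0 A N (@Algebra.norm (FC0 A N) (FC0 A N') _ _ aK.toRingHom.toAlgebra y) :=
  @Fermat.Agent.GL.Gate.NormConst.normAlong_toFN ↥(inertiaField A)
    (inferInstance : Field ↥(inertiaField A)) (inferInstance : Algebra ↥(inertiaField A) Qb)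
    N N' _ _ aK ψ' hsq (isAlgebraic_inertiaField A) hfin y

end Norm

section Root

variable (N : ℕ) [NeZero N]

/-- **`m`-th root descent**: a `K₀`-rational function which is an `m`-th power over `ℚ̄` is
`constant * m-th power` over `K₀` (helper1 `exists_invariant_root` with `u := 1`). -/
theorem exists_cstPow_of_toFN0_eq_pow {m : ℕ} (hm : m ≠ 0) (z : FC0 A N) (w : FN N) (hw : w ≠ 0)
    (hz : toFN0 A N z = w ^ m) :
    ∃ (c : K0 A) (h : FC0 A N), c ≠ 0 ∧ h ≠ 0 ∧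
      z = algebraMap (K0 A) (FC0 A N) c * h ^ m := by
  obtain ⟨a, h₀, ha0, hh0, ha, hh, heq⟩ := exists_invariant_root (modularFunctionFieldFull N)
    (A.inertiaSubgroupIn ℚ) m hm (1 : FN N) w one_ne_zero hw
    (fun σ _ => map_one _)
    (fun σ hσ => by
      rw [one_mul, ← hz]
      exact arithmeticRingAut_toFN0 A N z hσ)
  obtain ⟨c, hc⟩ := exists_ι0_eq_of_fixed A a ha
  obtain ⟨hK, hhK⟩ := exists_toFN0_eq_of_fixed A N h₀ hh
  refine ⟨c, hK, ?_, ?_, ?_⟩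
  · rintro rfl
    rw [map_zero] at hc
    exact ha0 hc.symm
  · rintro rfl
    rw [map_zero] at hhK
    exact hh0 hhK.symm
  · apply toFN0_injective A N
    rw [map_mul, map_pow, toFN0_algebraMap, hc, hhK, hz]
    rw [one_mul, mul_one] at heq
    exact heq

end Root

section Gate

variable (N0 q : ℕ) [NeZero N0] [NeZero q]

/-- **The unit gate over `K₀ = ℚ̄^{I(P)}`**: every nonzero `y ∈ K₀(X₀(N0 q))` with `m ∣ div y`
(over `ℚ̄`) whose norms along the two `K₀`-rational degeneracy maps `aK`, `bK` are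
`constant * m-th power` in `K₀(X₀(N0))` has `y ^ C = constant * m1-th power` in `K₀(X₀(N0 q))`.
(The three `∃` are helper66's `IsCstPow (K0 A) _ _`, unfolded.) -/
def UnitGateK0 (m m1 C : ℕ) (aK bK : FC0 A N0 →ₐ[K0 A] FC0 A (N0 * q)) : Prop :=
  ∀ y : FC0 A (N0 * q), y ≠ 0 →
    (∀ Q : Place Kb (FK (N0 * q)), (m : ℤ) ∣ Q.ord (toFN0 A (N0 * q) y)) →
    (∃ (c : K0 A) (h : FC0 A N0), c ≠ 0 ∧ h ≠ 0 ∧
      @Algebra.norm (FC0 A N0) (FC0 A (N0 * q)) _ _ aK.toRingHom.toAlgebra y =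
        algebraMap (K0 A) (FC0 A N0) c * h ^ m) →
    (∃ (c : K0 A) (h : FC0 A N0), c ≠ 0 ∧ h ≠ 0 ∧
      @Algebra.norm (FC0 A N0) (FC0 A (N0 * q)) _ _ bK.toRingHom.toAlgebra y =
        algebraMap (K0 A) (FC0 A N0) c * h ^ m) →
    ∃ (c : K0 A) (w : FC0 A (N0 * q)), c ≠ 0 ∧ w ≠ 0 ∧
      y ^ C = algebraMap (K0 A) (FC0 A (N0 * q)) c * w ^ m1

variable {N0 q}

/-- the norm condition over `K₀` from the norm condition over `ℚ̄` -/
theorem exists_cstPow_norm {m : ℕ} (hm : m ≠ 0)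
    (cK : FC0 A N0 →ₐ[K0 A] FC0 A (N0 * q)) (ψ' : FN N0 →ₐ[Qb] FN (N0 * q))
    (hsq : ∀ x, toFN0 A (N0 * q) (cK x) = ψ' (toFN0 A N0 x)) (hfin : FiniteAlong Qb ψ')
    (y : FC0 A (N0 * q)) (w : FN N0) (hw : w ≠ 0)
    (hnorm : normAlong ψ' (toFN0 A (N0 * q) y) = w ^ m) :
    ∃ (c : K0 A) (h : FC0 A N0), c ≠ 0 ∧ h ≠ 0 ∧
      @Algebra.norm (FC0 A N0) (FC0 A (N0 * q)) _ _ cK.toRingHom.toAlgebra y =
        algebraMap (K0 A) (FC0 A N0) c * h ^ m :=
  exists_cstPow_of_toFN0_eq_pow A N0 hm _ w hw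
    ((normAlong_toFN0 A cK ψ' hsq hfin y).symm.trans hnorm)

/-- **The unit gate over `ℚ̄` (helper24 `UnitGateAB`) from the unit gate over `K₀`.** -/
theorem unitGateAB_of_K0 {m m1 C : ℕ} (hm : m ≠ 0) (hdvd : m1 ∣ m)
    (aK bK : FC0 A N0 →ₐ[K0 A] FC0 A (N0 * q))
    (haK : ∀ x, toFN0 A (N0 * q) (aK x) = alphaB N0 q (toFN0 A N0 x))
    (hbK : ∀ x, toFN0 A (N0 * q) (bK x) = betaB N0 q (toFN0 A N0 x))
    (h : UnitGateK0 A N0 q m m1 C aK bK) : UnitGateAB N0 q m m1 A C := by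
  intro u hu hI hα hβ
  obtain ⟨-, -, -, hfinα, -, -⟩ := Fermat.Agent.GJ.HInputs.heckeInputsAlong_bar N0 q
  have hfinβ : FiniteAlong Qb (betaB N0 q) := finiteAlong_betaB_all N0 q
  have hm1 : m1 ≠ 0 := fun h0 => hm (by rw [h0, zero_dvd_iff] at hdvd; exact hdvd)
  -- Step 1: the class of `u` is `I`-invariant
  have hxI : ∀ σ ∈ A.inertiaSubgroupIn ℚ,
      gal (N0 * q) m σ (Additive.ofMul (Kum.mk (⟨u, hu⟩ : pDivUnits Kb (FK (N0 * q)) m))) =
        Additive.ofMul (Kum.mk ⟨u, hu⟩) := by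
    intro σ hσ
    obtain ⟨w, hw⟩ := hI σ hσ
    rw [gal_mk]
    exact (ofMul_mk_eq_of w hw).symm
  -- Step 2: an `I`-fixed representative `u' = u * w0 ^ m`
  obtain ⟨u', hxu', hu'⟩ := exists_invariant_kum_rep (N0 * q) m hm (A.inertiaSubgroupIn ℚ) _ hxI
  obtain ⟨w0, hw0⟩ := Kum.mk_eq_mk_iff.mp (Additive.ofMul.injective hxu')
  -- Step 3: it is `K₀`-rational
  obtain ⟨y, hy⟩ := exists_toFN0_eq_of_fixed A (N0 * q) ((u' : (FK (N0 * q))ˣ) : FK (N0 * q))
    (fun σ hσ => by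
      have h1 := congrArg (fun w : (FK (N0 * q))ˣ => (w : FK (N0 * q))) (hu' σ hσ)
      simpa using h1)
  have hy0 : y ≠ 0 := by
    rintro rfl
    rw [map_zero] at hy
    exact (u' : (FK (N0 * q))ˣ).ne_zero hy.symm
  -- the two norms of `u'` are `m`-th powers
  obtain ⟨wα, hwα⟩ := hα
  obtain ⟨wβ, hwβ⟩ := hβ
  have hnα : normAlong (alphaB N0 q) (toFN0 A (N0 * q) y) =
      (((wα * normUnits N0 q w0 : (FK N0)ˣ) : (FK N0)ˣ) : FK N0) ^ m := by
    rw [hy, ← coe_normUnits, hw0, map_mul, map_pow, hwα, ← mul_pow]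
    rfl
  have hnβ : normAlong (betaB N0 q) (toFN0 A (N0 * q) y) =
      (((wβ * normUnitsB N0 q w0 : (FK N0)ˣ) : (FK N0)ˣ) : FK N0) ^ m := by
    rw [hy, ← coe_normUnitsB, hw0, map_mul, map_pow, hwβ, ← mul_pow]
    rfl
  -- Step 4: the gate over `K₀`
  obtain ⟨c, w, hc, hw, hyC⟩ := h y hy0
    (fun Q => by rw [hy]; exact u'.2 Q)
    (exists_cstPow_norm A hm aK (alphaB N0 q) haK hfinα y _ (Units.ne_zero _) hnα)
    (exists_cstPow_norm A hm bK (betaB N0 q) hbK hfinβ y _ (Units.ne_zero _) hnβ)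
  -- Step 5: back to `ℚ̄`
  obtain ⟨d, hd⟩ := IsAlgClosed.exists_pow_nat_eq (ι0 A c) (Nat.pos_of_ne_zero hm1)
  have hd0 : d ≠ 0 := by
    rintro rfl
    rw [zero_pow hm1] at hd
    exact hc ((map_eq_zero (ι0 A)).mp hd.symm)
  set W : FK (N0 * q) := algebraMap Kbar (FN (N0 * q)) d * toFN0 A (N0 * q) w with hW
  have hW0 : W ≠ 0 := mul_ne_zero ((map_ne_zero _).mpr hd0) ((map_ne_zero _).mpr hw)
  have hWpow : W ^ m1 = ((u' : (FK (N0 * q))ˣ) : FK (N0 * q)) ^ C := by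
    rw [← hy, ← map_pow, hyC, map_mul, map_pow, toFN0_algebraMap, hW, mul_pow, ← map_pow, hd]
  obtain ⟨t, ht⟩ := hdvd
  refine ⟨Units.mk0 W hW0 * (w0⁻¹) ^ (t * C), ?_⟩
  have hu_eq : u = (u' : (FK (N0 * q))ˣ) * (w0⁻¹) ^ m := by
    rw [hw0, mul_assoc, ← mul_pow, mul_inv_cancel, one_pow, mul_one]
  have hWu : (Units.mk0 W hW0) ^ m1 = (u' : (FK (N0 * q))ˣ) ^ C := Units.ext (by
    rw [Units.val_pow_eq_pow_val, Units.val_pow_eq_pow_val, Units.val_mk0]
    exact hWpow)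
  have hexp : m * C = t * C * m1 := by rw [ht]; ring
  rw [hu_eq, mul_pow, mul_pow, hWu, ← pow_mul, ← pow_mul, hexp]

/-- **helper24's concrete gate `GeomInvAB` (= helper17's `GeomKill`) at level `N0 * q` from the unit
gates over `K₀`** with a bounded level loss `p ^ c`. -/
theorem geomInvAB_of_K0 (p : ℕ) [Fact p.Prime] (c C' : ℕ)
    (aK bK : FC0 A N0 →ₐ[K0 A] FC0 A (N0 * q))
    (haK : ∀ x, toFN0 A (N0 * q) (aK x) = alphaB N0 q (toFN0 A N0 x))
    (hbK : ∀ x, toFN0 A (N0 * q) (bK x) = betaB N0 q (toFN0 A N0 x))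
    (h : ∀ k : ℕ, c ≤ k → UnitGateK0 A N0 q (p ^ k) (p ^ (k - c)) C' aK bK) :
    ∀ k : ℕ, GeomInvAB N0 q (p ^ k) A (C' * p ^ c) :=
  geomInvAB_of_unitGate p c C' fun k hk =>
    unitGateAB_of_K0 A (pow_ne_zero k (Fact.out : p.Prime).ne_zero)
      (pow_dvd_pow p (Nat.sub_le k c)) aK bK haK hbK (h k hk)

end Gate

end Fermat.Agent.GL.Gate.K0Bridge
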