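/-
GATE-L / H4 PRODUCERS (helper46): producers for the node hypotheses of `H4OfXi.h4_of_xi`
(`O'`, `hroot'`, `hNU1`, `hNU2`) from normality of the lower ring `B'` and `NormUnit`.

* `locRing n'` : the local ring of `B'` at the prime `n'`, as a subring of `E`;
* `locRing_root_closed` : `B'` integrally closed ⟹ `z ^ m ∈ locRing n' → z ∈ locRing n'`
  (`= hroot'`);
* `norm_unit_locRing` : `B` integral over `B'`, `c : B` in no maximal ideal over `n'`, `c0` a unit
  of `locRing n'` ⟹ `Nm c ≠ 0`, `Nm c / c0` and its inverse lie in `locRing n'`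
  (`= hNU1`/`hNU2` for `Nm = Algebra.norm E`).
-/
import Mathlib
import Fermat.Agent.GL.Chain.NormUnit

set_option autoImplicit false
set_option linter.unusedSectionVars false
set_option linter.unusedVariables false

namespace Fermat.Agent.GL.H4Producers

variable {B' E : Type*} [CommRing B'] [Field E] [Algebra B' E]

/-- the local ring of `B'` at `n'` inside `E`. -/
def locRing (n' : Ideal B') [hn' : n'.IsPrime] : Subring E where
  carrier := {z | ∃ a s : B', s ∉ n' ∧ z * algebraMap B' E s = algebraMap B' E a}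
  mul_mem' := by
    rintro z w ⟨a, s, hs, h⟩ ⟨a', s', hs', h'⟩
    refine ⟨a * a', s * s', fun hmem => (hn'.mem_or_mem hmem).elim hs hs', ?_⟩
    rw [map_mul, map_mul, ← h, ← h']; ring
  one_mem' := ⟨1, 1, fun h => hn'.ne_top ((Ideal.eq_top_iff_one n').mpr h), by simp⟩
  add_mem' := by
    rintro z w ⟨a, s, hs, h⟩ ⟨a', s', hs', h'⟩
    refine ⟨a * s' + a' * s, s * s', fun hmem => (hn'.mem_or_mem hmem).elim hs hs', ?_⟩
    rw [map_add, map_mul, map_mul, map_mul, ← h, ← h']; ring
  zero_mem' := ⟨0, 1, fun h => hn'.ne_top ((Ideal.eq_top_iff_one n').mpr h), by simp⟩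
  neg_mem' := by
    rintro z ⟨a, s, hs, h⟩
    exact ⟨-a, s, hs, by rw [map_neg, ← h]; ring⟩

theorem mem_locRing {n' : Ideal B'} [n'.IsPrime] {z : E} :
    z ∈ locRing (E := E) n' ↔
      ∃ a s : B', s ∉ n' ∧ z * algebraMap B' E s = algebraMap B' E a := Iff.rfl

theorem algebraMap_mem_locRing (n' : Ideal B') [hn' : n'.IsPrime] (b : B') :
    algebraMap B' E b ∈ locRing (E := E) n' :=
  ⟨b, 1, fun h => hn'.ne_top ((Ideal.eq_top_iff_one n').mpr h), by simp⟩

variable [IsDomain B'] [IsFractionRing B' E]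

theorem inv_algebraMap_mem_locRing (n' : Ideal B') [hn' : n'.IsPrime] {b : B'} (hb : b ∉ n') :
    (algebraMap B' E b)⁻¹ ∈ locRing (E := E) n' := by
  have hb0 : algebraMap B' E b ≠ 0 := by
    intro h0
    have : b = 0 := IsFractionRing.injective B' E (by rw [h0, map_zero])
    exact hb (this ▸ n'.zero_mem)
  exact ⟨1, b, hb, by rw [inv_mul_cancel₀ hb0, map_one]⟩

/-- `hroot'`: the local ring of an integrally closed domain is root closed. -/
theorem locRing_root_closed [IsIntegrallyClosed B'] (n' : Ideal B') [hn' : n'.IsPrime] {m : ℕ}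
    (hm : m ≠ 0) (z : E) (hz : z ^ m ∈ locRing (E := E) n') : z ∈ locRing (E := E) n' := by
  obtain ⟨a, s, hs, h⟩ := hz
  -- `(s z)^m = s^(m-1) a ∈ B'`
  have hint : IsIntegral B' (algebraMap B' E s * z) := by
    refine ⟨Polynomial.X ^ m - Polynomial.C (s ^ (m - 1) * a), Polynomial.monic_X_pow_sub_C _ hm, ?_⟩
    rw [Polynomial.eval₂_sub, Polynomial.eval₂_pow, Polynomial.eval₂_X, Polynomial.eval₂_C,
      map_mul, map_pow, mul_pow, ← h, ← pow_sub_one_mul hm (algebraMap B' E s)]
    ring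
  obtain ⟨b, hb⟩ := IsIntegrallyClosed.isIntegral_iff.mp hint
  exact ⟨b, s, hs, by rw [hb, mul_comm]⟩

section Norm

variable {B F : Type*} [CommRing B] [Field F] [Algebra E F] [Algebra B' B]
  [Algebra.IsIntegral B' B] [IsIntegrallyClosed B'] [Algebra B F] [Algebra B' F]
  [IsScalarTower B' B F] [IsScalarTower B' E F]

/-- `hNU`: the norm of an element of `B` lying in no maximal ideal over `n'`, divided by a unit
`c0` of the node ring, is a unit of the node ring. -/
theorem norm_unit_locRing (n' : Ideal B') [hn' : n'.IsMaximal] (c : B)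
    (hc : ∀ n : Ideal B, n.IsMaximal → n.comap (algebraMap B' B) = n' → c ∉ n)
    {c0 : E} (hc0 : c0 ≠ 0) (hc0m : c0 ∈ locRing (E := E) n') (hc0i : c0⁻¹ ∈ locRing (E := E) n') :
    Algebra.norm E (algebraMap B F c) ≠ 0 ∧
      Algebra.norm E (algebraMap B F c) / c0 ∈ locRing (E := E) n' ∧
      (Algebra.norm E (algebraMap B F c) / c0)⁻¹ ∈ locRing (E := E) n' := by
  obtain ⟨ν, hν, hνeq⟩ :=
    NormUnit.exists_norm_eq_of_not_mem_over (B' := B') (E := E) (F := F) n' c hc
  have hν0 : algebraMap B' E ν ≠ 0 := by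
    intro h0
    have : ν = 0 := IsFractionRing.injective B' E (by rw [h0, map_zero])
    exact hν (this ▸ n'.zero_mem)
  rw [← hνeq]
  refine ⟨hν0, ?_, ?_⟩
  · rw [div_eq_mul_inv]
    exact Subring.mul_mem _ (algebraMap_mem_locRing n' ν) hc0i
  · rw [inv_div, div_eq_mul_inv]
    exact Subring.mul_mem _ hc0m (inv_algebraMap_mem_locRing n' hν)

end Norm

end Fermat.Agent.GL.H4Producers
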