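/-
GATE-L / H4 CONST-POW PRODUCER (helper46): producer of the hypotheses `hN1 hN2 hh1 hh2` (and of
the "`c01, c02` are vertical units" input of `hNU1 hNU2`) of `H4OfXi.h4_of_xi` from the output
`IsCstPow L m (Nm u2)`, `IsCstPow L m (Nm' u2)` of helper66's `Chain.exists_normalised`.

* `mem_range_of_pow_eq` : `z ^ m` constant ⟹ `z` constant (`k` algebraically closed);
* `exists_joint_unit_rep` : `x = c * v ^ m` a unit at `A1` and `A2` (both discrete with uniformiser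
  the constant `q0`, constants having the SAME value at `A1` and `A2`) ⟹ `x = d * h ^ m` with
  `d`, `h` units at `A1` and `A2`;
* `exists_const_red` : if moreover `rd_j' x = 1` and constants reduce to constants, then
  `rd_j' h = γ j ∈ kˣ` is a constant;
* `isU_ev_of_const` : such an `h` is a unit at every composite branch, of value `γ`;
* `norm_red_eq_one` : `U2 S u2` ⟹ `rd_j' (Nm u2) = 1`, `rd_j' (Nm' u2) = 1` (four rows);
* `hh_of_isCstPow` : the assembly, in the binder shapes of `h4_of_xi`.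
-/
import Mathlib
import Fermat.Agent.GL.Chain.RedStep
import Fermat.Agent.GL.Gate.H4OfXi

set_option autoImplicit false
set_option linter.unusedSectionVars false
set_option linter.unusedVariables false

namespace Fermat.Agent.GL.H4ConstPow

open Fermat.Agent.GL Fermat.Agent.GL.Chain Fermat.Agent.GL.CompBranch Fermat.Agent.GL.H4OfXi

/-- an element whose `m`-th power is a constant is a constant (`k` algebraically closed). -/
theorem mem_range_of_pow_eq {k κ : Type*} [Field k] [IsAlgClosed k] [Field κ] [Algebra k κ]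
    {m : ℕ} (hm : m ≠ 0) {z : κ} {a : k} (h : z ^ m = algebraMap k κ a) :
    ∃ γ : k, z = algebraMap k κ γ := by
  have hint : IsIntegral k z := by
    refine ⟨Polynomial.X ^ m - Polynomial.C a, Polynomial.monic_X_pow_sub_C _ hm, ?_⟩
    rw [Polynomial.eval₂_sub, Polynomial.eval₂_pow, Polynomial.eval₂_X, Polynomial.eval₂_C, h,
      sub_self]
  have hdeg : (minpoly k z).degree = 1 :=
    IsAlgClosed.degree_eq_one_of_irreducible k (minpoly.irreducible hint)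
  obtain ⟨γ, hγ⟩ := minpoly.mem_range_of_degree_eq_one k z hdeg
  exact ⟨γ, hγ.symm⟩

section Joint

variable {L E : Type*} [Field L] [Field E] [Algebra L E]

/-- joint renormalisation at `A1` and `A2`. -/
theorem exists_joint_unit_rep {A1 A2 : ValuationSubring E} {q0 : L}
    (hdA1 : IsDiscAt A1 (algebraMap L E q0)) (hdA2 : IsDiscAt A2 (algebraMap L E q0))
    (hLval : ∀ c : L, c ≠ 0 → ∃ n : ℤ,
      A1.valuation (algebraMap L E c) = A1.valuation (algebraMap L E q0) ^ n ∧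
      A2.valuation (algebraMap L E c) = A2.valuation (algebraMap L E q0) ^ n)
    {m : ℕ} (hm : m ≠ 0) {x : E} (hx1 : A1.valuation x = 1) (hx2 : A2.valuation x = 1)
    (hx : IsCstPow L m x) :
    ∃ (d : L) (h : E), d ≠ 0 ∧ h ≠ 0 ∧ x = algebraMap L E d * h ^ m ∧
      A1.valuation (algebraMap L E d) = 1 ∧ A2.valuation (algebraMap L E d) = 1 ∧
      A1.valuation h = 1 ∧ A2.valuation h = 1 := by
  obtain ⟨c, v, hc, hv, e⟩ := hx
  have hq0 : q0 ≠ 0 := fun h0 => hdA1.ne_zero (by rw [h0, map_zero])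
  have hqE : algebraMap L E q0 ≠ 0 := hdA1.ne_zero
  obtain ⟨n, hn1, hn2⟩ := hLval c hc
  obtain ⟨l1, hl1⟩ := hdA1.exists_zpow v hv
  obtain ⟨l2, hl2⟩ := hdA2.exists_zpow v hv
  have h1 : n + l1 * m = 0 := by
    have := hdA1.valuation_mul_pow m hn1 hl1
    rw [← e, hx1, ← zpow_zero (A1.valuation (algebraMap L E q0))] at this
    exact (hdA1.zpow_inj this).symm
  have h2 : n + l2 * m = 0 := by
    have := hdA2.valuation_mul_pow m hn2 hl2
    rw [← e, hx2, ← zpow_zero (A2.valuation (algebraMap L E q0))] at this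
    exact (hdA2.zpow_inj this).symm
  have hl : l1 = l2 := by
    have hm' : (m : ℤ) ≠ 0 := by exact_mod_cast hm
    have : (l1 - l2) * (m : ℤ) = 0 := by linear_combination h1 - h2
    rcases mul_eq_zero.mp this with h | h
    · exact sub_eq_zero.mp h
    · exact absurd h hm'
  subst hl
  have hv1 : A1.valuation (algebraMap L E q0) ≠ 0 := hdA1.valuation_ne_zero
  have hv2 : A2.valuation (algebraMap L E q0) ≠ 0 := hdA2.valuation_ne_zero
  refine ⟨c * q0 ^ (-n), v * algebraMap L E q0 ^ (-l1), mul_ne_zero hc (zpow_ne_zero _ hq0),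
    mul_ne_zero hv (zpow_ne_zero _ hqE), ?_, ?_, ?_, ?_, ?_⟩
  · rw [e, map_mul, map_zpow₀, mul_pow, ← zpow_natCast (algebraMap L E q0 ^ (-l1)), ← zpow_mul]
    have : algebraMap L E q0 ^ (-n) * algebraMap L E q0 ^ (-l1 * (m : ℤ)) = 1 := by
      rw [← zpow_add₀ hqE]
      have : -n + -l1 * (m : ℤ) = 0 := by linear_combination -h1
      rw [this, zpow_zero]
    calc algebraMap L E c * v ^ m = algebraMap L E c * v ^ m * 1 := (mul_one _).symm
      _ = algebraMap L E c * v ^ m *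
          (algebraMap L E q0 ^ (-n) * algebraMap L E q0 ^ (-l1 * (m : ℤ))) := by rw [this]
      _ = _ := by ring
  · rw [map_mul, map_zpow₀, map_mul, map_zpow₀, hn1, ← zpow_add₀ hv1, add_neg_cancel, zpow_zero]
  · rw [map_mul, map_zpow₀, map_mul, map_zpow₀, hn2, ← zpow_add₀ hv2, add_neg_cancel, zpow_zero]
  · rw [map_mul, map_zpow₀, hl1, ← zpow_add₀ hv1, add_neg_cancel, zpow_zero]
  · rw [map_mul, map_zpow₀, hl2, ← zpow_add₀ hv2, add_neg_cancel, zpow_zero]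

/-- a unit of `A` reducing to `1`. -/
theorem valuation_eq_one_of_red_eq_one {κ : Type*} [Field κ] {A : ValuationSubring E}
    (rd : A →+* κ) (hr : ∀ z : A, ¬ IsUnit z → rd z = 0) {x : E} (hx : x ∈ A)
    (h1 : rd ⟨x, hx⟩ = 1) : A.valuation x = 1 := by
  have hunit : IsUnit (⟨x, hx⟩ : A) := by
    by_contra hnu
    rw [hr _ hnu] at h1
    exact zero_ne_one h1
  exact (A.valuation_eq_one_iff ⟨x, hx⟩).mp hunit

/-- the reduction of the `m`-th root part of a `constant * m-th power` reducing to `1`. -/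
theorem red_const_of_mul_pow {k κ : Type*} [Field k] [IsAlgClosed k] [Field κ] [Algebra k κ]
    {A : ValuationSubring E} (rd : A →+* κ)
    (hLred : ∀ (c : L) (hc : algebraMap L E c ∈ A), ∃ a : k,
      rd ⟨algebraMap L E c, hc⟩ = algebraMap k κ a)
    {m : ℕ} (hm : m ≠ 0) {x : E} (hxA : x ∈ A) (hx1 : rd ⟨x, hxA⟩ = 1)
    {d : L} {h : E} (hh0 : h ≠ 0) (e : x = algebraMap L E d * h ^ m)
    (hdv : A.valuation (algebraMap L E d) = 1) (hhv : A.valuation h = 1) :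
    ∃ (γ : k) (h1 : h ∈ A) (h1i : h⁻¹ ∈ A), γ ≠ 0 ∧ rd ⟨h, h1⟩ = algebraMap k κ γ ∧
      rd ⟨h⁻¹, h1i⟩ = algebraMap k κ γ⁻¹ := by
  have hdA : algebraMap L E d ∈ A := (A.valuation_le_one_iff _).mp hdv.le
  have hhA : h ∈ A := (A.valuation_le_one_iff _).mp hhv.le
  have hhiA : h⁻¹ ∈ A := by
    apply (A.valuation_le_one_iff _).mp
    rw [map_inv₀, hhv, inv_one]
  obtain ⟨a, ha⟩ := hLred d hdA
  have hprod : algebraMap k κ a * rd ⟨h, hhA⟩ ^ m = 1 := by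
    rw [← ha, ← map_pow, ← map_mul, ← hx1]
    congr 1
    exact Subtype.ext e.symm
  have ha0 : a ≠ 0 := by
    rintro rfl
    rw [map_zero, zero_mul] at hprod
    exact zero_ne_one hprod
  have hpow : rd ⟨h, hhA⟩ ^ m = algebraMap k κ a⁻¹ := by
    rw [map_inv₀]
    exact eq_inv_of_mul_eq_one_right hprod
  obtain ⟨γ, hγ⟩ := mem_range_of_pow_eq hm hpow
  have hγ0 : γ ≠ 0 := by
    rintro rfl
    rw [map_zero] at hγ
    rw [hγ, zero_pow hm] at hpow
    exact (map_ne_zero (algebraMap k κ)).mpr (inv_ne_zero ha0) hpow.symm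
  refine ⟨γ, hhA, hhiA, hγ0, hγ, ?_⟩
  have hmul : rd ⟨h, hhA⟩ * rd ⟨h⁻¹, hhiA⟩ = 1 := by
    rw [← map_mul]
    have : (⟨h, hhA⟩ : A) * ⟨h⁻¹, hhiA⟩ = 1 := Subtype.ext (mul_inv_cancel₀ hh0)
    rw [this, map_one]
  rw [map_inv₀, ← hγ]
  exact eq_inv_of_mul_eq_one_right hmul

end Joint

section Branch

variable {E k k' : Type*} [Field E] [Field k] [Field k'] [Algebra k k']

/-- a unit of `A` with constant reduction is a unit at every composite branch, of constant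
value. -/
theorem isU_ev_of_const (A : ValuationSubring E) (rd : A →+* k')
    (hr : ∀ z : A, ¬ IsUnit z → rd z = 0) (U' : ValuationSubring k') (e' : U' →+* k)
    (hconst : ∀ a : k, ∃ ha : algebraMap k k' a ∈ U', e' ⟨algebraMap k k' a, ha⟩ = a)
    {h : E} (hh0 : h ≠ 0) {γ : k} (h1 : h ∈ A) (h1i : h⁻¹ ∈ A)
    (hγ : rd ⟨h, h1⟩ = algebraMap k k' γ) (hγi : rd ⟨h⁻¹, h1i⟩ = algebraMap k k' γ⁻¹) :
    (branch A rd hr U' e').IsU h ∧ (branch A rd hr U' e').ev h = γ := by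
  obtain ⟨m1, e1⟩ := hconst γ
  obtain ⟨m2, e2⟩ := hconst γ⁻¹
  have hU : rd ⟨h, h1⟩ ∈ U' := hγ ▸ m1
  have hUi : rd ⟨h⁻¹, h1i⟩ ∈ U' := hγi ▸ m2
  refine ⟨isU_branch A rd hr U' e' hh0 h1 h1i hU hUi, ?_⟩
  rw [branch_ev A rd hr U' e' h1 hU]
  have : (⟨rd ⟨h, h1⟩, hU⟩ : U') = ⟨algebraMap k k' γ, m1⟩ := Subtype.ext hγ
  rw [this, e1]

end Branch

section Setup

variable {F E k k1 k2 k3 k1' k2' B T T' : Type*} [Field F] [Field E] [Field k]
  [Field k1] [Field k2] [Field k3] [Field k1'] [Field k2'] [CommRing B] [Algebra B F]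
  (S : TripleSetup F E k k1 k2 k3 k1' k2' B T T')

/-- the four rows at a normalised element: all norm reductions are `1`. -/
theorem norm_red_eq_one {u2 : F} (hU2 : U2 S u2) :
    (∃ hN : S.Nm u2 ∈ S.A1, S.rd1' ⟨S.Nm u2, hN⟩ = 1) ∧
    (∃ hN : S.Nm u2 ∈ S.A2, S.rd2' ⟨S.Nm u2, hN⟩ = 1) ∧
    (∃ hN : S.Nm' u2 ∈ S.A1, S.rd1' ⟨S.Nm' u2, hN⟩ = 1) ∧
    (∃ hN : S.Nm' u2 ∈ S.A2, S.rd2' ⟨S.Nm' u2, hN⟩ = 1) := by
  obtain ⟨⟨a1, b1⟩, ⟨a2, b2⟩, ⟨a3, b3⟩⟩ := hU2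
  refine ⟨?_, ?_, ?_, ?_⟩
  · obtain ⟨hN, y1, y3, e1, e3, e⟩ := S.hπ13 u2 a1 a3
    have hy1 : y1 = 1 := S.j11.injective (by rw [e1, b1, map_one])
    have hy3 : y3 = 1 := S.j13.injective (by rw [e3, b3, map_one])
    exact ⟨hN, by rw [e, hy1, hy3, one_pow, mul_one]⟩
  · obtain ⟨hN, e⟩ := S.hπ2 u2 a2
    exact ⟨hN, S.j22.injective (by rw [e, b2, one_pow, map_one])⟩
  · obtain ⟨hN, e⟩ := S.hπ'1 u2 a1
    exact ⟨hN, S.j11'.injective (by rw [e, b1, one_pow, map_one])⟩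
  · obtain ⟨hN, y2, y3, e2, e3, e⟩ := S.hπ'23 u2 a2 a3
    have hy2 : y2 = 1 := S.j22'.injective (by rw [e2, b2, map_one])
    have hy3 : y3 = 1 := S.j23'.injective (by rw [e3, b3, map_one])
    exact ⟨hN, by rw [e, hy2, hy3, one_pow, mul_one]⟩

variable {L : Type*} [Field L] [Algebra L E] [IsAlgClosed k] [Algebra k k1'] [Algebra k k2']

/-- **(P-HH)**: `hN1 hN2 hh1 hh2` of `h4_of_xi` from helper66's `IsCstPow` output. -/
theorem hh_of_isCstPow {q0 : L}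
    (hdA1 : IsDiscAt S.A1 (algebraMap L E q0)) (hdA2 : IsDiscAt S.A2 (algebraMap L E q0))
    (hLval : ∀ c : L, c ≠ 0 → ∃ n : ℤ,
      S.A1.valuation (algebraMap L E c) = S.A1.valuation (algebraMap L E q0) ^ n ∧
      S.A2.valuation (algebraMap L E c) = S.A2.valuation (algebraMap L E q0) ^ n)
    (hLred1 : ∀ (c : L) (hc : algebraMap L E c ∈ S.A1), ∃ a : k,
      S.rd1' ⟨algebraMap L E c, hc⟩ = algebraMap k k1' a)
    (hLred2 : ∀ (c : L) (hc : algebraMap L E c ∈ S.A2), ∃ a : k,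
      S.rd2' ⟨algebraMap L E c, hc⟩ = algebraMap k k2' a)
    (hconst1 : ∀ n' (a : k), ∃ ha : algebraMap k k1' a ∈ S.U1' n',
      S.e1' n' ⟨algebraMap k k1' a, ha⟩ = a)
    (hconst2 : ∀ n' (a : k), ∃ ha : algebraMap k k2' a ∈ S.U2' n',
      S.e2' n' ⟨algebraMap k k2' a, ha⟩ = a)
    {m : ℕ} (hm : m ≠ 0) {u2 : F} (hU2 : U2 S u2)
    (e₁ : IsCstPow L m (S.Nm u2)) (e₂ : IsCstPow L m (S.Nm' u2)) :
    ∃ (d1 d2 : L) (h1 h2 : E) (γ1 γ2 : Fin 2 → k), d1 ≠ 0 ∧ d2 ≠ 0 ∧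
      S.A1.valuation (algebraMap L E d1) = 1 ∧ S.A2.valuation (algebraMap L E d1) = 1 ∧
      S.A1.valuation (algebraMap L E d2) = 1 ∧ S.A2.valuation (algebraMap L E d2) = 1 ∧
      S.Nm u2 = algebraMap L E d1 * h1 ^ m ∧ S.Nm' u2 = algebraMap L E d2 * h2 ^ m ∧
      (∀ n' j, (S.bE n' j).IsU h1 ∧ (S.bE n' j).ev h1 = γ1 j) ∧
      (∀ n' j, (S.bE n' j).IsU h2 ∧ (S.bE n' j).ev h2 = γ2 j) := by
  obtain ⟨⟨n1, r1⟩, ⟨n2, r2⟩, ⟨n1', r1'⟩, ⟨n2', r2'⟩⟩ := norm_red_eq_one S hU2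
  -- `Nm`
  obtain ⟨d1, h1, hd1, hh1, E1, v11, v12, w11, w12⟩ :=
    exists_joint_unit_rep hdA1 hdA2 hLval hm
      (valuation_eq_one_of_red_eq_one S.rd1' S.hr1' n1 r1)
      (valuation_eq_one_of_red_eq_one S.rd2' S.hr2' n2 r2) e₁
  obtain ⟨γ10, m10, m10i, -, g10, g10i⟩ :=
    red_const_of_mul_pow (k := k) S.rd1' hLred1 hm n1 r1 hh1 E1 v11 w11
  obtain ⟨γ11, m11, m11i, -, g11, g11i⟩ :=
    red_const_of_mul_pow (k := k) S.rd2' hLred2 hm n2 r2 hh1 E1 v12 w12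
  -- `Nm'`
  obtain ⟨d2, h2, hd2, hh2, E2, v21, v22, w21, w22⟩ :=
    exists_joint_unit_rep hdA1 hdA2 hLval hm
      (valuation_eq_one_of_red_eq_one S.rd1' S.hr1' n1' r1')
      (valuation_eq_one_of_red_eq_one S.rd2' S.hr2' n2' r2') e₂
  obtain ⟨γ20, m20, m20i, -, g20, g20i⟩ :=
    red_const_of_mul_pow (k := k) S.rd1' hLred1 hm n1' r1' hh2 E2 v21 w21
  obtain ⟨γ21, m21, m21i, -, g21, g21i⟩ :=
    red_const_of_mul_pow (k := k) S.rd2' hLred2 hm n2' r2' hh2 E2 v22 w22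
  refine ⟨d1, d2, h1, h2, ![γ10, γ11], ![γ20, γ21], hd1, hd2, v11, v12, v21, v22, E1, E2, ?_, ?_⟩
  · intro n' j
    fin_cases j
    · exact isU_ev_of_const S.A1 S.rd1' S.hr1' (S.U1' n') (S.e1' n') (hconst1 n') hh1 m10 m10i
        g10 g10i
    · exact isU_ev_of_const S.A2 S.rd2' S.hr2' (S.U2' n') (S.e2' n') (hconst2 n') hh1 m11 m11i
        g11 g11i
  · intro n' j
    fin_cases j
    · exact isU_ev_of_const S.A1 S.rd1' S.hr1' (S.U1' n') (S.e1' n') (hconst1 n') hh2 m20 m20i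
        g20 g20i
    · exact isU_ev_of_const S.A2 S.rd2' S.hr2' (S.U2' n') (S.e2' n') (hconst2 n') hh2 m21 m21i
        g21 g21i

end Setup

end Fermat.Agent.GL.H4ConstPow
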