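/-
GATE-L / H4 APPROX PRODUCER (helper46): producer of the hypothesis `happ` of `H4OfXi.h4_of_xi`
from weak approximation at the three vertical valuations (helper66 `Chain.exists_approx_three`).

* `rd_eq_zero_iff` : `hker` from `hr` (a ring hom from a valuation ring to a field killing the
  non-units has kernel the maximal ideal);
* `happ_of_approx` : `W1 W2 W3` pairwise incomparable, `rd_i` surjective, constants lie in the
  branch rings `U_i n` with `e_i n` the identity on them ⟹ for `a0 ^ m = b0 ^ m = 1` there is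
  `f0 ≠ 0` with `U2 S (f0 ^ m)`, `f0` a unit at every branch with values `(1, a0, b0)`.
-/
import Mathlib
import Fermat.Agent.GL.Chain.OneModRad
import Fermat.Agent.GL.Gate.H4ConstPow

set_option autoImplicit false
set_option linter.unusedSectionVars false
set_option linter.unusedVariables false

namespace Fermat.Agent.GL.H4Approx

open Fermat.Agent.GL Fermat.Agent.GL.Chain Fermat.Agent.GL.CompBranch Fermat.Agent.GL.H4OfXi
open Fermat.Agent.GK.MultiVal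

/-- `hker` from `hr`. -/
theorem rd_eq_zero_iff {F κ : Type*} [Field F] [Field κ] {V : ValuationSubring F} (rd : V →+* κ)
    (hr : ∀ z : V, ¬ IsUnit z → rd z = 0) (x : V) : rd x = 0 ↔ V.valuation (x : F) < 1 := by
  constructor
  · intro h0
    have hnu : ¬ IsUnit x := by
      intro hu
      exact (hu.map rd).ne_zero h0
    have : x ∈ IsLocalRing.maximalIdeal V := (IsLocalRing.mem_maximalIdeal x).mpr hnu
    exact (V.valuation_lt_one_iff x).mp this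
  · intro hlt
    apply hr
    intro hu
    have : V.valuation (x : F) = 1 := (V.valuation_eq_one_iff x).mp hu
    rw [this] at hlt
    exact lt_irrefl _ hlt

section Setup

variable {F E k k1 k2 k3 k1' k2' B T T' : Type*} [Field F] [Field E] [Field k]
  [Field k1] [Field k2] [Field k3] [Field k1'] [Field k2'] [CommRing B] [Algebra B F]
  (S : TripleSetup F E k k1 k2 k3 k1' k2' B T T')
  [Algebra k k1] [Algebra k k2] [Algebra k k3]

/-- an element of `W` with nonzero constant reduction: the data of `isU_ev_of_const`. -/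
theorem const_red_inv {κ : Type*} [Field κ] [Algebra k κ] {V : ValuationSubring F}
    (rd : V →+* κ) (hr : ∀ z : V, ¬ IsUnit z → rd z = 0) {β : F} (hβ : β ∈ V) {γ : k}
    (hγ0 : γ ≠ 0) (hγ : rd ⟨β, hβ⟩ = algebraMap k κ γ) :
    β ≠ 0 ∧ ∃ hβi : β⁻¹ ∈ V, rd ⟨β⁻¹, hβi⟩ = algebraMap k κ γ⁻¹ := by
  have hne : rd ⟨β, hβ⟩ ≠ 0 := by
    rw [hγ]; exact (map_ne_zero _).mpr hγ0
  have hβ0 : β ≠ 0 := by
    rintro rfl
    exact hne (map_zero rd)
  have hunit : IsUnit (⟨β, hβ⟩ : V) := by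
    by_contra hnu
    exact hne (hr _ hnu)
  have hβi : β⁻¹ ∈ V := inv_mem_of_isUnit hunit
  refine ⟨hβ0, hβi, ?_⟩
  have hmul : rd ⟨β, hβ⟩ * rd ⟨β⁻¹, hβi⟩ = 1 := by
    rw [← map_mul]
    have : (⟨β, hβ⟩ : V) * ⟨β⁻¹, hβi⟩ = 1 := Subtype.ext (mul_inv_cancel₀ hβ0)
    rw [this, map_one]
  rw [map_inv₀, ← hγ]
  exact eq_inv_of_mul_eq_one_right hmul

/-- **`happ` of `h4_of_xi` from weak approximation.** -/
theorem happ_of_approx (hW : Incomparable ![S.W1, S.W2, S.W3])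
    (hs1 : Function.Surjective S.rd1) (hs2 : Function.Surjective S.rd2)
    (hs3 : Function.Surjective S.rd3)
    (hconst1 : ∀ n (a : k), ∃ ha : algebraMap k k1 a ∈ S.U1 n,
      S.e1 n ⟨algebraMap k k1 a, ha⟩ = a)
    (hconst2 : ∀ n (a : k), ∃ ha : algebraMap k k2 a ∈ S.U2 n,
      S.e2 n ⟨algebraMap k k2 a, ha⟩ = a)
    (hconst3 : ∀ n (a : k), ∃ ha : algebraMap k k3 a ∈ S.U3 n,
      S.e3 n ⟨algebraMap k k3 a, ha⟩ = a)
    {m : ℕ} (hm : m ≠ 0) :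
    ∀ a0 b0 : k, a0 ^ m = 1 → b0 ^ m = 1 → ∃ f0 : F, f0 ≠ 0 ∧ U2 S (f0 ^ m) ∧
      (∀ n i, (S.bN n i).IsU f0) ∧
      ∀ n, (S.bN n 0).ev f0 = 1 ∧ (S.bN n 1).ev f0 = a0 ∧ (S.bN n 2).ev f0 = b0 := by
  intro a0 b0 ha0 hb0
  have ha00 : a0 ≠ 0 := by
    rintro rfl
    rw [zero_pow hm] at ha0
    exact zero_ne_one ha0
  have hb00 : b0 ≠ 0 := by
    rintro rfl
    rw [zero_pow hm] at hb0
    exact zero_ne_one hb0
  obtain ⟨β, h1, h2, h3, r1, r2, r3⟩ :=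
    exists_approx_three hW S.rd1 S.rd2 S.rd3 hs1 hs2 hs3 (rd_eq_zero_iff S.rd1 S.hr1)
      (rd_eq_zero_iff S.rd2 S.hr2) (rd_eq_zero_iff S.rd3 S.hr3) (algebraMap k k1 1)
      (algebraMap k k2 a0) (algebraMap k k3 b0)
  obtain ⟨hβ0, h1i, r1i⟩ := const_red_inv S.rd1 S.hr1 h1 one_ne_zero r1
  obtain ⟨-, h2i, r2i⟩ := const_red_inv S.rd2 S.hr2 h2 ha00 r2
  obtain ⟨-, h3i, r3i⟩ := const_red_inv S.rd3 S.hr3 h3 hb00 r3
  have p1 : ∀ n, (branch S.W1 S.rd1 S.hr1 (S.U1 n) (S.e1 n)).IsU β ∧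
      (branch S.W1 S.rd1 S.hr1 (S.U1 n) (S.e1 n)).ev β = 1 := fun n =>
    H4ConstPow.isU_ev_of_const S.W1 S.rd1 S.hr1 (S.U1 n) (S.e1 n) (hconst1 n) hβ0 h1 h1i r1 r1i
  have p2 : ∀ n, (branch S.W2 S.rd2 S.hr2 (S.U2 n) (S.e2 n)).IsU β ∧
      (branch S.W2 S.rd2 S.hr2 (S.U2 n) (S.e2 n)).ev β = a0 := fun n =>
    H4ConstPow.isU_ev_of_const S.W2 S.rd2 S.hr2 (S.U2 n) (S.e2 n) (hconst2 n) hβ0 h2 h2i r2 r2i
  have p3 : ∀ n, (branch S.W3 S.rd3 S.hr3 (S.U3 n) (S.e3 n)).IsU β ∧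
      (branch S.W3 S.rd3 S.hr3 (S.U3 n) (S.e3 n)).ev β = b0 := fun n =>
    H4ConstPow.isU_ev_of_const S.W3 S.rd3 S.hr3 (S.U3 n) (S.e3 n) (hconst3 n) hβ0 h3 h3i r3 r3i
  refine ⟨β, hβ0, ⟨⟨pow_mem h1 m, ?_⟩, ⟨pow_mem h2 m, ?_⟩, ⟨pow_mem h3 m, ?_⟩⟩, ?_, ?_⟩
  · have : (⟨β ^ m, pow_mem h1 m⟩ : S.W1) = ⟨β, h1⟩ ^ m := rfl
    rw [this, map_pow, r1, map_one, one_pow]
  · have : (⟨β ^ m, pow_mem h2 m⟩ : S.W2) = ⟨β, h2⟩ ^ m := rfl
    rw [this, map_pow, r2, ← map_pow, ha0, map_one]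
  · have : (⟨β ^ m, pow_mem h3 m⟩ : S.W3) = ⟨β, h3⟩ ^ m := rfl
    rw [this, map_pow, r3, ← map_pow, hb0, map_one]
  · intro n i
    fin_cases i
    · exact (p1 n).1
    · exact (p2 n).1
    · exact (p3 n).1
  · intro n
    exact ⟨(p1 n).2, (p2 n).2, (p3 n).2⟩

end Setup

end Fermat.Agent.GL.H4Approx
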