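/-
GATE-L / H4 NODE-UNITS PRODUCER (helper46): producer of the hypothesis `hE0'` of
`H4OfXi.h4_of_xi` for the node rings `O' n' := H4Producers.locRing (P' n')`.

The chart ring `B'` of the lower level with its nodes `P' n'` and residue characters `χ' n'`
satisfies the same branch compatibilities as `B` does in `TripleSetup`
(`hB1' hB2' hχ1' hχ2'`: every `b ∈ B'` lies in both composite rings at `n'`, with both branch
values equal to `χ' n' b` — this is the K-N6 description of the special fibre over `R`).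
Then a unit `z` of the local ring of `B'` at `P' n'` has equal values at the two branches.
-/
import Mathlib
import Fermat.Agent.GL.Gate.H4OfXi
import Fermat.Agent.GL.Gate.H4Producers

set_option autoImplicit false
set_option linter.unusedSectionVars false
set_option linter.unusedVariables false

namespace Fermat.Agent.GL.H4NodeUnits

open Fermat.Agent.GL Fermat.Agent.GL.CompBranch Fermat.Agent.GL.H4OfXi
  Fermat.Agent.GL.H4Producers

section Local

variable {E κ k B' : Type*} [Field E] [Field κ] [Field k] [CommRing B'] [IsDomain B']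
  [Algebra B' E] [IsFractionRing B' E]

/-- a unit of the local ring of `B'` at `P'` is a unit at a composite branch through `P'`, with
value `χ' a / χ' s` for any presentation `z * s = a`. -/
theorem isU_ev_of_locRing_unit (A : ValuationSubring E) (rd : A →+* κ)
    (hr : ∀ z : A, ¬ IsUnit z → rd z = 0) (U : ValuationSubring κ) (e : U →+* k)
    (heu : ∀ (y : κ) (hy : y ∈ U), e ⟨y, hy⟩ ≠ 0 → y⁻¹ ∈ U)
    (P' : Ideal B') [hP' : P'.IsPrime] (χ' : B' →+* k) (hχ'ker : ∀ b, χ' b = 0 ↔ b ∈ P')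
    (hB' : ∀ b : B', algebraMap B' E b ∈ comp A rd hr U)
    (hχ' : ∀ b : B', (branch A rd hr U e).ev (algebraMap B' E b) = χ' b)
    {z : E} (hz0 : z ≠ 0) {a s : B'} (hs : s ∉ P') (ha : a ∉ P')
    (h : z * algebraMap B' E s = algebraMap B' E a) :
    (branch A rd hr U e).IsU z ∧ (branch A rd hr U e).ev z = χ' a / χ' s := by
  have hne : ∀ b : B', b ∉ P' → algebraMap B' E b ≠ 0 := by
    intro b hb h0
    have : b = 0 := IsFractionRing.injective B' E (by rw [h0, map_zero])
    exact hb (this ▸ P'.zero_mem)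
  have hU : ∀ b : B', b ∉ P' → (branch A rd hr U e).IsU (algebraMap B' E b) := by
    intro b hb
    refine ⟨hne b hb, hB' b, ?_⟩
    exact inv_mem_comp_of_ev_ne_zero A rd hr U e heu (hB' b)
      (by rw [hχ' b]; exact fun h0 => hb ((hχ'ker b).mp h0))
  have hzeq : z = algebraMap B' E a / algebraMap B' E s := by
    rw [eq_div_iff (hne s hs)]; exact h
  rw [hzeq]
  refine ⟨(hU a ha).div (hU s hs), ?_⟩
  rw [XiStep.Branch.ev_div (hU a ha) (hU s hs), hχ' a, hχ' s]

/-- the numerator of a unit of the local ring avoids the prime. -/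
theorem num_not_mem_of_inv_mem (P' : Ideal B') [hP' : P'.IsPrime] {z : E} (hz0 : z ≠ 0)
    (hzi : z⁻¹ ∈ locRing (E := E) P') {a s : B'} (hs : s ∉ P')
    (h : z * algebraMap B' E s = algebraMap B' E a) : a ∉ P' := by
  obtain ⟨a', s', hs', h'⟩ := hzi
  intro ha
  have hprod : a * a' = s * s' := by
    apply IsFractionRing.injective B' E
    rw [map_mul, map_mul, ← h, ← h']
    field_simp
  have hmem : s * s' ∈ P' := hprod ▸ P'.mul_mem_right a' ha
  exact (hP'.mem_or_mem hmem).elim hs hs'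

end Local

section Setup

variable {F E k k1 k2 k3 k1' k2' B T T' : Type*} [Field F] [Field E] [Field k]
  [Field k1] [Field k2] [Field k3] [Field k1'] [Field k2'] [CommRing B] [Algebra B F]
  (S : TripleSetup F E k k1 k2 k3 k1' k2' B T T')
  {B' : Type*} [CommRing B'] [IsDomain B'] [Algebra B' E] [IsFractionRing B' E]

/-- **`hE0'` of `h4_of_xi`** for `O' n' := locRing (P' n')`. -/
theorem hE0'_of_chars (P' : T' → Ideal B') [hP' : ∀ n', (P' n').IsPrime]
    (χ' : T' → (B' →+* k)) (hχ'ker : ∀ n' b, χ' n' b = 0 ↔ b ∈ P' n')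
    (heu1' : ∀ n' (y : k1') (hy : y ∈ S.U1' n'), S.e1' n' ⟨y, hy⟩ ≠ 0 → y⁻¹ ∈ S.U1' n')
    (heu2' : ∀ n' (y : k2') (hy : y ∈ S.U2' n'), S.e2' n' ⟨y, hy⟩ ≠ 0 → y⁻¹ ∈ S.U2' n')
    (hB1' : ∀ n' (b : B'), algebraMap B' E b ∈ comp S.A1 S.rd1' S.hr1' (S.U1' n'))
    (hB2' : ∀ n' (b : B'), algebraMap B' E b ∈ comp S.A2 S.rd2' S.hr2' (S.U2' n'))
    (hχ1' : ∀ n' (b : B'),
      (branch S.A1 S.rd1' S.hr1' (S.U1' n') (S.e1' n')).ev (algebraMap B' E b) = χ' n' b)
    (hχ2' : ∀ n' (b : B'),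
      (branch S.A2 S.rd2' S.hr2' (S.U2' n') (S.e2' n')).ev (algebraMap B' E b) = χ' n' b) :
    ∀ n' (z : E), z ≠ 0 → z ∈ locRing (E := E) (P' n') → z⁻¹ ∈ locRing (E := E) (P' n') →
      (S.bE n' 0).ev z = (S.bE n' 1).ev z := by
  intro n' z hz0 hz hzi
  obtain ⟨a, s, hs, h⟩ := hz
  have ha : a ∉ P' n' := num_not_mem_of_inv_mem (P' n') hz0 hzi hs h
  have e0 := (isU_ev_of_locRing_unit S.A1 S.rd1' S.hr1' (S.U1' n') (S.e1' n') (heu1' n') (P' n')
    (χ' n') (hχ'ker n') (hB1' n') (hχ1' n') hz0 hs ha h).2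
  have e1 := (isU_ev_of_locRing_unit S.A2 S.rd2' S.hr2' (S.U2' n') (S.e2' n') (heu2' n') (P' n')
    (χ' n') (hχ'ker n') (hB2' n') (hχ2' n') hz0 hs ha h).2
  exact e0.trans e1.symm

end Setup

end Fermat.Agent.GL.H4NodeUnits
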