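/-
GATE-L / H5-FINISH (helper24): the last line of (V1) of BLUEPRINT v2.

The CECH-KUMMER lemma (helper28 `CechKummer.exists_section` / `CechAmbient.exists_section_ambient`)
produces a global section `s ∈ B1 ∩ M`, `s ≡ 1 mod 𝔯` (so `s ≠ 0`), where
`B1`, `B2` = integral closures of `R0[h]`, `R0[1/h]` in `F0 = K₀(X₀(N))` and
`M = {f | f ^ m1 * u3 ∈ B2}`.  Here we finish: if moreover `u3 ∈ B1`, then `u3` is an `m1`-th power
over `ℚ̄` (`deg D = 0 ⟹ D` principal).

* `map_mem_of_isIntegral` : valuation subrings are integrally closed (along a ring hom);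
* `ord_nonneg_of_isIntegral` : elements integral over `R0[t]` have no pole at places where the
  constants and `t` have none;
* `isPow_of_section` : the finish, for any function field `F/K` with the hypotheses of
  `GJ.J1.KummerFinish.kummer_finish`;
* `isPow_of_section_bar` : the instance `F = F_N = modularFunctionFieldBar N`.
-/
import Mathlib
import Fermat.Agent.GJ.J1.KummerFinish
import Fermat.Agent.S24.PlaceBasic

set_option autoImplicit false
set_option linter.unusedSectionVars false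

noncomputable section

namespace Fermat.Agent.GL.Gate

open AlgebraicCurve ModularCurve Polynomial

section Generic

variable {K F : Type*} [Field K] [Field F] [Algebra K F]
variable {R0 F0 : Type*} [CommRing R0] [Field F0] [Algebra R0 F0]

/-- **valuation subrings are integrally closed**, along a ring homomorphism: if `τ` maps the
subalgebra `S` into the valuation subring `A`, it maps every element integral over `S` into `A`. -/
theorem map_mem_of_isIntegral (A : ValuationSubring F) (τ : F0 →+* F) (S : Subalgebra R0 F0)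
    (hS : ∀ y ∈ S, τ y ∈ A) {x : F0} (hx : IsIntegral S x) : τ x ∈ A := by
  obtain ⟨p, hp, hpx⟩ := hx
  let φ : S →+* A :=
    { toFun := fun y => ⟨τ (y : F0), hS _ y.2⟩
      map_one' := Subtype.ext (by simp)
      map_mul' := fun a b => Subtype.ext (by simp)
      map_zero' := Subtype.ext (by simp)
      map_add' := fun a b => Subtype.ext (by simp) }
  have hcomm : (algebraMap A F).comp φ = τ.comp (algebraMap S F0) := RingHom.ext fun y => rfl
  have hint : IsIntegral A (τ x) := by
    refine ⟨p.map φ, hp.map φ, ?_⟩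
    rw [eval₂_map, hcomm, ← hom_eval₂, hpx, map_zero]
  obtain ⟨y, hy⟩ := IsIntegrallyClosed.isIntegral_iff.mp hint
  rw [← hy]
  exact y.2

/-- elements integral over `R0[t]` have no pole at a place where the constants and `t` have none -/
theorem ord_nonneg_of_isIntegral (τ : F0 →+* F) (P : Place K F)
    (hR0 : ∀ r : R0, τ (algebraMap R0 F0 r) ∈ P.toValuationSubring)
    (t : F0) (ht : τ t ∈ P.toValuationSubring) {x : F0}
    (hx : IsIntegral (Algebra.adjoin R0 {t}) x) : τ x ∈ P.toValuationSubring := by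
  refine map_mem_of_isIntegral P.toValuationSubring τ (Algebra.adjoin R0 {t}) ?_ hx
  intro y hy
  induction hy using Algebra.adjoin_induction with
  | mem z hz =>
    rw [Set.mem_singleton_iff] at hz
    rw [hz]
    exact ht
  | algebraMap r => exact hR0 r
  | add a b _ _ ha hb =>
    rw [map_add]
    exact P.toValuationSubring.add_mem _ _ ha hb
  | mul a b _ _ ha hb =>
    rw [map_mul]
    exact P.toValuationSubring.mul_mem _ _ ha hb

/-- **The finish.**  `B1`, `B2` integral over `R0[h]`, `R0[hinv]` (`h * hinv = 1`); `u3, s ∈ B1`,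
`s ≠ 0`, `s ^ m1 * u3 ∈ B2`  ⟹  `τ u3` is an `m1`-th power in `F`. -/
theorem isPow_of_section [IsAlgClosed K] [HasPrincipalDivisors K F]
    (hdeg : ∀ P : Place K F, 0 < P.deg)
    (hconst : ∀ g : F, g ≠ 0 → (∀ P : Place K F, P.ord g = 0) → ∃ c : K, g = algebraMap K F c)
    (τ : F0 →+* F)
    (hR0 : ∀ (r : R0) (P : Place K F), τ (algebraMap R0 F0 r) ∈ P.toValuationSubring)
    (h hinv : F0) (hh : h * hinv = 1)
    (B1 B2 : Set F0)
    (hB1 : ∀ x ∈ B1, IsIntegral (Algebra.adjoin R0 {h}) x)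
    (hB2 : ∀ x ∈ B2, IsIntegral (Algebra.adjoin R0 {hinv}) x)
    {m1 : ℕ} (hm1 : m1 ≠ 0) (u3 s : F0) (hu3 : u3 ≠ 0) (hs0 : s ≠ 0)
    (hu3B1 : u3 ∈ B1) (hsB1 : s ∈ B1) (hsM : s ^ m1 * u3 ∈ B2) :
    ∃ w : F, w ≠ 0 ∧ τ u3 = w ^ m1 := by
  have hτu : τ u3 ≠ 0 := (map_ne_zero τ).mpr hu3
  have hτs : τ s ≠ 0 := (map_ne_zero τ).mpr hs0
  have hsec : ∀ P : Place K F, 0 ≤ (m1 : ℤ) * P.ord (τ s) + (P.ord (τ u3) - P.ord (1 : F)) := by
    intro P
    rw [Place.ord_one, sub_zero]
    by_cases hP : τ h ∈ P.toValuationSubring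
    · -- `h` regular at `P`: `B1 ⊆ O_P`
      have h1 : τ s ∈ P.toValuationSubring :=
        ord_nonneg_of_isIntegral τ P (fun r => hR0 r P) h hP (hB1 s hsB1)
      have h2 : τ u3 ∈ P.toValuationSubring :=
        ord_nonneg_of_isIntegral τ P (fun r => hR0 r P) h hP (hB1 u3 hu3B1)
      have h3 := (Fermat.Agent.S24.PlaceB.ord_nonneg_iff P hτs).mpr h1
      have h4 := (Fermat.Agent.S24.PlaceB.ord_nonneg_iff P hτu).mpr h2
      have h5 : (0 : ℤ) ≤ (m1 : ℤ) := Int.natCast_nonneg m1
      positivity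
    · -- `h` has a pole at `P`: `1/h` regular, `B2 ⊆ O_P`
      have hinvP : τ hinv ∈ P.toValuationSubring := by
        have hτh : τ h * τ hinv = 1 := by rw [← map_mul, hh, map_one]
        have h0 : τ h ≠ 0 := left_ne_zero_of_mul_eq_one hτh
        have e : τ hinv = (τ h)⁻¹ := eq_inv_of_mul_eq_one_right hτh
        rw [e]
        rcases P.toValuationSubring.mem_or_inv_mem (τ h) with h' | h'
        · exact absurd h' hP
        · exact h'
      have h1 : τ (s ^ m1 * u3) ∈ P.toValuationSubring :=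
        ord_nonneg_of_isIntegral τ P (fun r => hR0 r P) hinv hinvP (hB2 _ hsM)
      have h2 := (Fermat.Agent.S24.PlaceB.ord_nonneg_iff P
        ((map_ne_zero τ).mpr (mul_ne_zero (pow_ne_zero _ hs0) hu3))).mpr h1
      rw [map_mul, map_pow, Place.ord_mul _ (pow_ne_zero _ hτs) hτu, ← zpow_natCast,
        Place.ord_zpow] at h2
      exact h2
  obtain ⟨v, hv0, hv⟩ := Fermat.Agent.GJ.J1.KummerFinish.kummer_finish hdeg hconst hm1 hτu
    one_ne_zero hτs hsec
  exact ⟨v, hv0, by rw [hv, one_mul]⟩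

end Generic

section Bar

variable {R0 F0 : Type*} [CommRing R0] [Field F0] [Algebra R0 F0] {N : ℕ} [NeZero N]

local notation "Kbar" => AlgebraicClosure ℚ

/-- **The finish at `F = F_N = ℚ̄(X₀(N))`.** -/
theorem isPow_of_section_bar (τ : F0 →+* modularFunctionFieldBar N)
    (hR0 : ∀ (r : R0) (P : Place Kbar (modularFunctionFieldBar N)),
      τ (algebraMap R0 F0 r) ∈ P.toValuationSubring)
    (h hinv : F0) (hh : h * hinv = 1)
    (B1 B2 : Set F0)
    (hB1 : ∀ x ∈ B1, IsIntegral (Algebra.adjoin R0 {h}) x)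
    (hB2 : ∀ x ∈ B2, IsIntegral (Algebra.adjoin R0 {hinv}) x)
    {m1 : ℕ} (hm1 : m1 ≠ 0) (u3 s : F0) (hu3 : u3 ≠ 0) (hs0 : s ≠ 0)
    (hu3B1 : u3 ∈ B1) (hsB1 : s ∈ B1) (hsM : s ^ m1 * u3 ∈ B2) :
    ∃ w : modularFunctionFieldBar N, w ≠ 0 ∧ τ u3 = w ^ m1 :=
  haveI := Fermat.Agent.GJ.FibreCurve.instHasPrincipalDivisorsBar (N := N)
  isPow_of_section
    (fun P => by rw [Fermat.Agent.RR.ModularBar.deg_eq_one N P]; exact one_pos)
    (fun _ hg h0 => Fermat.Agent.GJ.FibreCurve.exists_const_bar hg h0)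
    τ hR0 h hinv hh B1 B2 hB1 hB2 hm1 u3 s hu3 hs0 hu3B1 hsB1 hsM

/-- constants coming from a subring of `ℚ̄` are integral at every place: the `hR0` input when
`τ (algebraMap R0 F0 r) = algebraMap ℚ̄ F_N (ι r)`. -/
theorem hR0_of_const (τ : F0 →+* modularFunctionFieldBar N) (ι : R0 →+* Kbar)
    (hτ : ∀ r : R0, τ (algebraMap R0 F0 r) = algebraMap Kbar (modularFunctionFieldBar N) (ι r))
    (r : R0) (P : Place Kbar (modularFunctionFieldBar N)) :
    τ (algebraMap R0 F0 r) ∈ P.toValuationSubring := by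
  rw [hτ]
  exact P.algebraMap_mem' _

end Bar

end Fermat.Agent.GL.Gate
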