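/-
GATE-L / H4 ARM, compiled (helper46): `H4OfXi.h4_of_xi` with ALL its side hypotheses discharged
by the landed producers

  `H4ConstPow.hh_of_isCstPow`     (`hN1 hN2 hh1 hh2`, `c0i := algebraMap L E d_i`)
  `H4Producers.locRing_root_closed` (`hroot'`, `O' n' := locRing (P' n')`)
  `H4NodeUnits.hE0'_of_chars`     (`hE0'`)
  `H4Approx.happ_of_approx`       (`happ`)

and `hNU1 hNU2` from the abstract norm statement `hNUa hNUb`
(`Nm (algebraMap c) = algebraMap ν`, `ν ∉ P' (p n)`: `NormUnit.exists_norm_eq_of_not_mem_over`)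
plus `hLunit` (vertical-unit constants are units of the node rings).

`h4_arm` is the `H4` binder of `ChainAbs.k0UnitGateQ_of_chain'` up to `hloc` (local Kummer data at
the triple points, from `m ∣ div u2` + REG).
-/
import Mathlib
import Fermat.Agent.GL.Gate.H4Approx
import Fermat.Agent.GL.Gate.H4NodeUnits

set_option autoImplicit false
set_option linter.unusedSectionVars false
set_option linter.unusedVariables false

namespace Fermat.Agent.GL.H4Arm

open Fermat.Agent.GL Fermat.Agent.GL.Chain Fermat.Agent.GL.CompBranch Fermat.Agent.GL.H4OfXi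
  Fermat.Agent.GL.H4Producers
open Fermat.Agent.GK.MultiVal

variable {F E k k1 k2 k3 k1' k2' B T T' : Type*} [Field F] [Field E] [Field k]
  [Field k1] [Field k2] [Field k3] [Field k1'] [Field k2'] [CommRing B] [IsDomain B]
  [Algebra B F] [IsFractionRing B F]
  (S : TripleSetup F E k k1 k2 k3 k1' k2' B T T')
  {L : Type*} [Field L] [Algebra L E] [IsAlgClosed k]
  [Algebra k k1] [Algebra k k2] [Algebra k k3] [Algebra k k1'] [Algebra k k2']
  {B' : Type*} [CommRing B'] [IsDomain B'] [IsIntegrallyClosed B'] [Algebra B' E]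
  [IsFractionRing B' E]

/-- **The (H4) arm**, all side hypotheses of `h4_of_xi` discharged. -/
theorem h4_arm [Finite T] {m : ℕ} (hm : m ≠ 0) (hrc : KummerMove.RootClosed B F m)
    -- the vertical valuations of `F`: approximation
    (hW : Incomparable ![S.W1, S.W2, S.W3])
    (hs1 : Function.Surjective S.rd1) (hs2 : Function.Surjective S.rd2)
    (hs3 : Function.Surjective S.rd3)
    -- constants at the branch points
    (hconst1 : ∀ n (a : k), ∃ ha : algebraMap k k1 a ∈ S.U1 n,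
      S.e1 n ⟨algebraMap k k1 a, ha⟩ = a)
    (hconst2 : ∀ n (a : k), ∃ ha : algebraMap k k2 a ∈ S.U2 n,
      S.e2 n ⟨algebraMap k k2 a, ha⟩ = a)
    (hconst3 : ∀ n (a : k), ∃ ha : algebraMap k k3 a ∈ S.U3 n,
      S.e3 n ⟨algebraMap k k3 a, ha⟩ = a)
    (hconst1' : ∀ n' (a : k), ∃ ha : algebraMap k k1' a ∈ S.U1' n',
      S.e1' n' ⟨algebraMap k k1' a, ha⟩ = a)
    (hconst2' : ∀ n' (a : k), ∃ ha : algebraMap k k2' a ∈ S.U2' n',
      S.e2' n' ⟨algebraMap k k2' a, ha⟩ = a)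
    -- the vertical valuations of `E` (helper66 shapes)
    {q0 : L}
    (hdA1 : IsDiscAt S.A1 (algebraMap L E q0)) (hdA2 : IsDiscAt S.A2 (algebraMap L E q0))
    (hLval : ∀ c : L, c ≠ 0 → ∃ n : ℤ,
      S.A1.valuation (algebraMap L E c) = S.A1.valuation (algebraMap L E q0) ^ n ∧
      S.A2.valuation (algebraMap L E c) = S.A2.valuation (algebraMap L E q0) ^ n)
    (hLred1 : ∀ (c : L) (hc : algebraMap L E c ∈ S.A1), ∃ a : k,
      S.rd1' ⟨algebraMap L E c, hc⟩ = algebraMap k k1' a)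
    (hLred2 : ∀ (c : L) (hc : algebraMap L E c ∈ S.A2), ∃ a : k,
      S.rd2' ⟨algebraMap L E c, hc⟩ = algebraMap k k2' a)
    -- the chart ring of the lower level with its nodes
    (P' : T' → Ideal B') [hP' : ∀ n', (P' n').IsPrime]
    (χ' : T' → (B' →+* k)) (hχ'ker : ∀ n' b, χ' n' b = 0 ↔ b ∈ P' n')
    (heu1' : ∀ n' (y : k1') (hy : y ∈ S.U1' n'), S.e1' n' ⟨y, hy⟩ ≠ 0 → y⁻¹ ∈ S.U1' n')
    (heu2' : ∀ n' (y : k2') (hy : y ∈ S.U2' n'), S.e2' n' ⟨y, hy⟩ ≠ 0 → y⁻¹ ∈ S.U2' n')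
    (hB1' : ∀ n' (b : B'), algebraMap B' E b ∈ comp S.A1 S.rd1' S.hr1' (S.U1' n'))
    (hB2' : ∀ n' (b : B'), algebraMap B' E b ∈ comp S.A2 S.rd2' S.hr2' (S.U2' n'))
    (hχ1' : ∀ n' (b : B'),
      (branch S.A1 S.rd1' S.hr1' (S.U1' n') (S.e1' n')).ev (algebraMap B' E b) = χ' n' b)
    (hχ2' : ∀ n' (b : B'),
      (branch S.A2 S.rd2' S.hr2' (S.U2' n') (S.e2' n')).ev (algebraMap B' E b) = χ' n' b)
    -- vertical-unit constants are units of the node rings
    (hLunit : ∀ d : L, S.A1.valuation (algebraMap L E d) = 1 → ∀ n',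
      algebraMap L E d ∈ locRing (E := E) (P' n') ∧
        (algebraMap L E d)⁻¹ ∈ locRing (E := E) (P' n'))
    -- norms of semilocal units (`NormUnit`)
    (hNUa : ∀ c : B, (∀ n, c ∉ S.P n) → ∀ n, ∃ ν : B', ν ∉ P' (S.p1 n) ∧
      S.Nm (algebraMap B F c) = algebraMap B' E ν)
    (hNUb : ∀ c : B, (∀ n, c ∉ S.P n) → ∀ n, ∃ ν : B', ν ∉ P' (S.p2 n) ∧
      S.Nm' (algebraMap B F c) = algebraMap B' E ν)
    {u2 : F} (hu20 : u2 ≠ 0) (hU2 : U2 S u2)
    -- local Kummer data at the triple points (REG + `m ∣ div u2`)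
    (hloc : ∀ n, ∃ g : F, ∃ a s : B, a ∉ S.P n ∧ s ∉ S.P n ∧
      g ^ m * u2 * algebraMap B F s = algebraMap B F a)
    (e₁ : IsCstPow L m (S.Nm u2)) (e₂ : IsCstPow L m (S.Nm' u2)) :
    ∃ f0 : F, f0 ≠ 0 ∧ U3 S m (u2 ^ (S.q ^ 2 - 1) * f0 ^ m) := by
  obtain ⟨d1, d2, h1, h2, γ1, γ2, hd1, hd2, v11, -, v21, -, E1, E2, hh1, hh2⟩ :=
    H4ConstPow.hh_of_isCstPow S hdA1 hdA2 hLval hLred1 hLred2 hconst1' hconst2' hm hU2 e₁ e₂
  have hc01 : algebraMap L E d1 ≠ 0 := (map_ne_zero _).mpr hd1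
  have hc02 : algebraMap L E d2 ≠ 0 := (map_ne_zero _).mpr hd2
  have hne : ∀ n' (ν : B'), ν ∉ P' n' → algebraMap B' E ν ≠ 0 := by
    intro n' ν hν h0
    have : ν = 0 := IsFractionRing.injective B' E (by rw [h0, map_zero])
    exact hν (this ▸ (P' n').zero_mem)
  refine h4_of_xi S hm hrc hu20 hU2 hloc (fun n' => locRing (E := E) (P' n'))
    (fun n' z hz => locRing_root_closed (P' n') hm z hz)
    (H4NodeUnits.hE0'_of_chars S P' χ' hχ'ker heu1' heu2' hB1' hB2' hχ1' hχ2')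
    hc01 hc02 E1 E2 γ1 γ2 hh1 hh2 ?_ ?_
    (H4Approx.happ_of_approx S hW hs1 hs2 hs3 hconst1 hconst2 hconst3 hm)
  · intro c hc n
    obtain ⟨ν, hν, hνeq⟩ := hNUa c hc n
    obtain ⟨hu, hui⟩ := hLunit d1 v11 (S.p1 n)
    rw [hνeq]
    refine ⟨hne _ ν hν, ?_, ?_⟩
    · rw [div_eq_mul_inv]
      exact Subring.mul_mem _ (algebraMap_mem_locRing (P' (S.p1 n)) ν) hui
    · rw [inv_div, div_eq_mul_inv]
      exact Subring.mul_mem _ hu (inv_algebraMap_mem_locRing (P' (S.p1 n)) hν)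
  · intro c hc n
    obtain ⟨ν, hν, hνeq⟩ := hNUb c hc n
    obtain ⟨hu, hui⟩ := hLunit d2 v21 (S.p2 n)
    rw [hνeq]
    refine ⟨hne _ ν hν, ?_, ?_⟩
    · rw [div_eq_mul_inv]
      exact Subring.mul_mem _ (algebraMap_mem_locRing (P' (S.p2 n)) ν) hui
    · rw [inv_div, div_eq_mul_inv]
      exact Subring.mul_mem _ hu (inv_algebraMap_mem_locRing (P' (S.p2 n)) hν)

end Fermat.Agent.GL.H4Arm
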