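import Fermat.Agent.GL.Gate.H4OfXi

/-!
# GATE-L / transport of a `TripleSetup` along an isomorphism of chart rings (helper29)

`S : H4OfXi.TripleSetup F E k k1 k2 k3 k1' k2' B T T'`, `e : B ≃+* B'` with
`algebraMap B' F (e b) = algebraMap B F b`:  `transport S e he : TripleSetup … B' T T'` with ALL the
valuation-level fields unchanged (definitionally), `P n ↦ (P n).comap e.symm`,
`χ n ↦ (χ n).comp e.symm`.

* `U2_transport` (`Iff.rfl`), `U3_transport` : `U3 S m u ↔ U3 (transport S e he) m u`.

USE: the concrete `setupK0` lives over `↥(BK0 A N)`; the frames of the (H5) arm are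
`chartRing (R0 A) t` for a presentation `t` of `j` — `e := RingEquiv.subringCongr _`, `he := rfl`.
-/

set_option autoImplicit false

namespace Fermat.Agent.GL.TripleTransport

open Fermat.Agent.GL.H4OfXi Fermat.Agent.GL.CompBranch

variable {F E k k1 k2 k3 k1' k2' B B' T T' : Type*} [Field F] [Field E] [Field k]
  [Field k1] [Field k2] [Field k3] [Field k1'] [Field k2'] [CommRing B] [Algebra B F]
  [CommRing B'] [Algebra B' F]

/-- transport of the triple-point record along `e : B ≃+* B'` over `F`. -/
noncomputable def transport (S : TripleSetup F E k k1 k2 k3 k1' k2' B T T') (e : B ≃+* B')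
    (he : ∀ b : B, algebraMap B' F (e b) = algebraMap B F b) :
    TripleSetup F E k k1 k2 k3 k1' k2' B' T T' :=
  have he' : ∀ b' : B', algebraMap B' F b' = algebraMap B F (e.symm b') := fun b' => by
    rw [← he, e.apply_symm_apply]
  { S with
    P := fun n => (S.P n).comap (e.symm : B' →+* B)
    hmax := fun n => by
      have := S.hmax n
      exact Ideal.comap_isMaximal_of_surjective (e.symm : B' →+* B) e.symm.surjective
    hinj := fun n n' h => S.hinj (by
      have h' : ((S.P n).comap (e.symm : B' →+* B)).comap (e : B →+* B') =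
          ((S.P n').comap (e.symm : B' →+* B)).comap (e : B →+* B') := by
        exact congrArg (Ideal.comap (e : B →+* B')) h
      simpa [Ideal.comap_comap] using h')
    χ := fun n => (S.χ n).comp (e.symm : B' →+* B)
    hχker := fun n b => by
      rw [RingHom.comp_apply, S.hχker, Ideal.mem_comap]
    hχsurj := fun n => (S.hχsurj n).comp e.symm.surjective
    hB1 := fun n b => by rw [he']; exact S.hB1 n _
    hB2 := fun n b => by rw [he']; exact S.hB2 n _
    hB3 := fun n b => by rw [he']; exact S.hB3 n _
    hχ1 := fun n b => by rw [he']; exact S.hχ1 n _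
    hχ2 := fun n b => by rw [he']; exact S.hχ2 n _
    hχ3 := fun n b => by rw [he']; exact S.hχ3 n _ }

section Lemmas

variable (S : TripleSetup F E k k1 k2 k3 k1' k2' B T T') (e : B ≃+* B')
  (he : ∀ b : B, algebraMap B' F (e b) = algebraMap B F b)

@[simp] theorem transport_W1 : (transport S e he).W1 = S.W1 := rfl
@[simp] theorem transport_W2 : (transport S e he).W2 = S.W2 := rfl
@[simp] theorem transport_W3 : (transport S e he).W3 = S.W3 := rfl
@[simp] theorem transport_rd1 : (transport S e he).rd1 = S.rd1 := rfl
@[simp] theorem transport_rd2 : (transport S e he).rd2 = S.rd2 := rfl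
@[simp] theorem transport_rd3 : (transport S e he).rd3 = S.rd3 := rfl
@[simp] theorem transport_q : (transport S e he).q = S.q := rfl
@[simp] theorem transport_Nm : (transport S e he).Nm = S.Nm := rfl
@[simp] theorem transport_Nm' : (transport S e he).Nm' = S.Nm' := rfl

theorem transport_P (n : T) :
    (transport S e he).P n = (S.P n).comap (e.symm : B' →+* B) := rfl

theorem mem_transport_P (n : T) (b' : B') :
    b' ∈ (transport S e he).P n ↔ e.symm b' ∈ S.P n := Iff.rfl

theorem map_mem_transport_P (n : T) (b : B) :
    e b ∈ (transport S e he).P n ↔ b ∈ S.P n := by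
  rw [mem_transport_P, e.symm_apply_apply]

theorem transport_χ (n : T) (b' : B') :
    (transport S e he).χ n b' = S.χ n (e.symm b') := rfl

theorem transport_χ_map (n : T) (b : B) : (transport S e he).χ n (e b) = S.χ n b := by
  rw [transport_χ, e.symm_apply_apply]

/-- `U2` does not see the chart ring. -/
theorem U2_transport {u : F} : U2 (transport S e he) u ↔ U2 S u := Iff.rfl

/-- **`U3` is invariant under transport.** -/
theorem U3_transport {m : ℕ} {u : F} (h : U3 S m u) : U3 (transport S e he) m u := by
  obtain ⟨h2, g, c, hgc, hcP, hb⟩ := h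
  refine ⟨h2, g, e c, ?_, fun n => ?_, fun n => ?_⟩
  · rw [he]
    exact hgc
  · rw [map_mem_transport_P]
    exact hcP n
  · obtain ⟨b0, hb0, h1, h2', h3⟩ := hb n
    refine ⟨e b0, ?_, ?_, ?_, ?_⟩
    · rw [map_mem_transport_P]
      exact hb0
    · rw [he]
      exact h1
    · rw [he]
      exact h2'
    · rw [he]
      exact h3

end Lemmas

end Fermat.Agent.GL.TripleTransport
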