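/-
GATE-L / H4 NORM ADAPTER (helper46): the hypotheses `hNUa hNUb` of `H4Arm.h4_arm` from
`NormUnit.exists_norm_eq_of_not_mem_over`, when the norm map is `Algebra.norm E` for the algebra
structure `E → F` of the degeneracy map and the point set `T` is closed under "lies over the
same node" (`hcl`).
-/
import Mathlib
import Fermat.Agent.GL.Chain.NormUnit

set_option autoImplicit false
set_option linter.unusedSectionVars false
set_option linter.unusedVariables false

namespace Fermat.Agent.GL.H4NormAdapter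

variable {B' B E F T T' : Type*} [CommRing B'] [CommRing B] [Field E] [Field F]
  [Algebra B' B] [Algebra.IsIntegral B' B] [Algebra E F] [IsDomain B'] [IsIntegrallyClosed B']
  [Algebra B' E] [IsFractionRing B' E] [Algebra B F] [Algebra B' F] [IsScalarTower B' B F]
  [IsScalarTower B' E F]

/-- `hNUa` / `hNUb` of `h4_arm`. -/
theorem hNU_of_norm (P : T → Ideal B) (P' : T' → Ideal B') [hP' : ∀ n', (P' n').IsMaximal]
    (p : T → T') (Nm : F →* E) (hNm : ∀ x, Nm x = Algebra.norm E x)
    (hcl : ∀ n0 (n : Ideal B), n.IsMaximal → n.comap (algebraMap B' B) = P' (p n0) →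
      ∃ n1, n = P n1) :
    ∀ c : B, (∀ n, c ∉ P n) → ∀ n, ∃ ν : B', ν ∉ P' (p n) ∧
      Nm (algebraMap B F c) = algebraMap B' E ν := by
  intro c hc n0
  obtain ⟨ν, hν, hνeq⟩ :=
    NormUnit.exists_norm_eq_of_not_mem_over (B' := B') (E := E) (F := F) (P' (p n0)) c (by
      intro n hn hcomap
      obtain ⟨n1, rfl⟩ := hcl n0 n hn hcomap
      exact hc n1)
  exact ⟨ν, hν, by rw [hNm, hνeq]⟩

end Fermat.Agent.GL.H4NormAdapter
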